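import Fermat.Agent.GT.Glue.Geo
import Fermat.Agent.GT.Brg.Defs
import Fermat.Agent.GR.E.BR7
import Fermat.Agent.S05.Inertia

/-! GT-GLUE, file `Inst`: the field `geo` of `Brg.GeoFam` from `GeoData` over `(L, A ∩ L)`. -/

set_option autoImplicit false
set_option synthInstance.maxHeartbeats 400000

noncomputable section

namespace Fermat.Agent.GT.Glue

open Fermat.Agent.GR Fermat.Agent.GR.E Fermat.Agent.GS Fermat.Agent.GT Fermat.Agent.GT.Brg
  ModularCurve AlgebraicCurve IntermediateField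

/-- `C c * z ^ n` with `c ∈ Lˣ` is a `ConstPow`. -/
theorem constPow_of_eq {L : Type*} [Field L] (R : ValuationSubring L) (N n : ℕ) {v z : FF L N}
    {c : L} (hc : c ≠ 0)
    (h : (v : LaurentSeries L) = HahnSeries.C c * (z : LaurentSeries L) ^ n) :
    ConstPow R n v := by
  have hC : ∀ r : R, ((algebraMap R (FF L N) r : FF L N) : LaurentSeries L)
      = HahnSeries.C (r : L) := BR7_coe_algebraMap R N
  rcases R.mem_or_inv_mem c with hcR | hcR
  · refine ⟨⟨c, hcR⟩, 1, z, fun h0 => hc (congrArg Subtype.val h0), one_ne_zero, ?_⟩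
    apply Subtype.ext
    push_cast
    rw [hC, h]
    simp
  · refine ⟨1, ⟨c⁻¹, hcR⟩, z, one_ne_zero,
      fun h0 => inv_ne_zero hc (congrArg Subtype.val h0), ?_⟩
    apply Subtype.ext
    push_cast
    rw [hC, h]
    have : (HahnSeries.C c : LaurentSeries L) * HahnSeries.C c⁻¹ = 1 := by
      rw [← map_mul, mul_inv_cancel₀ hc, map_one]
    calc HahnSeries.C c * (z : LaurentSeries L) ^ n * HahnSeries.C c⁻¹
        = (HahnSeries.C c * HahnSeries.C c⁻¹) * (z : LaurentSeries L) ^ n := by ring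
      _ = _ := by rw [this]

set_option maxHeartbeats 1000000 in
/-- THE FIELD `geo` OF `Brg.GeoFam`. -/
theorem geo_of_geoData {q N1 : ℕ} [NeZero q] (hq : q.Prime) {A : ValuationSubring Qb}
    (hA : A.LiesOverPrime q) (ζ : Qbˣ) (L : IntermediateField ℚ Qb)
    [IsDiscreteValuationRing (RL A L)] (hirr : Irreducible ((q : ℕ) : RL A L))
    {𝒪 : Fin 3 → ValuationSubring (FF L (q ^ 2 * N1))}
    {Oi' Oz' : ValuationSubring (FF L (q * N1))}
    {φ1 φ2 : FF L (q * N1) →ₐ[RL A L] FF L (q ^ 2 * N1)}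
    {NL1 NL2 : FF L (q ^ 2 * N1) →* FF L (q * N1)} {h : FF L (q ^ 2 * N1)}
    (hG : GeoData (R := RL A L) (F := FF L (q ^ 2 * N1)) (F' := FF L (q * N1)) (ι := Fin 3)
      ((q : ℕ) : RL A L) 𝒪 0 1 2 q Oi' Oz' φ1 φ2 NL1 NL2 h)
    (hN1 : ∀ x : FF L (q ^ 2 * N1), coeffMap (algebraMap L Qb) (NL1 x : LaurentSeries L) =
      ((normFF Qb (N := q * N1) (N' := q ^ 2 * N1) ⟨q, by ring⟩
        (mapFF (algebraMap L Qb) (q ^ 2 * N1) x) : FF Qb (q * N1)) : LaurentSeries Qb))
    (hN2 : ∀ x : FF L (q ^ 2 * N1), coeffMap (algebraMap L Qb) (NL2 x : LaurentSeries L) =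
      normT q ζ (coeffMap (algebraMap L Qb) (x : LaurentSeries L)))
    (n : ℕ) (hn : ¬ q ∣ n) (w : FF L (q ^ 2 * N1)) (hw : ∀ i : Fin 3, w - 1 ∈ (𝒪 i).nonunits)
    (hdiv : DivisibleAtPlaces (RL A L) n w) (hNT : NormTriv q N1 n ζ L w) :
    KummerEquiv (q ^ 2 * N1) n 1
      (coeffMap (algebraMap L Qb) (w : LaurentSeries L) ^ (q ^ 2 - 1)) := by
  have hn0 : n ≠ 0 := by
    rintro rfl
    exact hn (dvd_zero _)
  have hinj := BR7_coeffMap_injective (algebraMap L Qb)
  -- `n` is a unit of `A ∩ L`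
  have hnU : IsUnit ((n : ℕ) : RL A L) := by
    rw [← IsLocalRing.notMem_maximalIdeal, ← ValuationSubring.coe_mem_nonunits_iff,
      BR7_mem_nonunits_comap]
    have h1 : ((n : ℤ) : Qb) ∉ A.nonunits := by
      rw [Fermat.Agent.S05.intCast_mem_nonunits_iff A hq hA]
      exact_mod_cast hn
    simpa using h1
  obtain ⟨⟨c2, z2, hc2, -, e2⟩, ⟨c1, z1, hc1, -, e1⟩⟩ := hNT
  have h1 : ConstPow (RL A L) n (NL1 w) := by
    refine constPow_of_eq (RL A L) (q * N1) n hc1 (z := z1) (hinj ?_)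
    rw [hN1, e1]
  have h2 : ConstPow (RL A L) n (NL2 w) := by
    refine constPow_of_eq (RL A L) (q * N1) n hc2 (z := z2) (hinj ?_)
    rw [hN2, e2]
  obtain ⟨α, hα0, hint⟩ := geo_main hirr hq.two_le hG hnU hw hdiv h1 h2
  obtain ⟨c₀, hc₀⟩ := exists_const_of_isIntegral (RL A L) _ (algebraMap L Qb) _ hint
  obtain ⟨γ, hγ⟩ := IsAlgClosed.exists_pow_nat_eq c₀ (Nat.pos_of_ne_zero hn0)
  have hα' : coeffMap (algebraMap L Qb) (α : LaurentSeries L) ≠ 0 := by
    intro h0
    apply hα0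
    apply Subtype.ext
    apply hinj
    rw [h0]; simp
  have hw0 : w ≠ 0 := by
    rintro rfl
    have := hw 0
    rw [zero_sub] at this
    have h3 := nonunits_neg this
    rw [neg_neg, ValuationSubring.mem_nonunits_iff, map_one] at h3
    exact lt_irrefl _ h3
  have hw' : coeffMap (algebraMap L Qb) (w : LaurentSeries L) ≠ 0 := by
    intro h0
    apply hw0
    apply Subtype.ext
    apply hinj
    rw [h0]; simp
  have hc : coeffMap (algebraMap L Qb) (α : LaurentSeries L) ^ n *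
      coeffMap (algebraMap L Qb) (w : LaurentSeries L) ^ (q ^ 2 - 1) = HahnSeries.C γ ^ n := by
    rw [← map_pow HahnSeries.C, hγ, ← hc₀]
    simp
  have hγ0 : HahnSeries.C γ ≠ (0 : LaurentSeries Qb) := by
    intro h0
    rw [h0, zero_pow hn0] at hc
    exact (mul_ne_zero (pow_ne_zero _ hα') (pow_ne_zero _ hw')) hc
  refine ⟨HahnSeries.C γ / coeffMap (algebraMap L Qb) (α : LaurentSeries L), ?_,
    div_ne_zero hγ0 hα', ?_⟩
  · apply div_mem
    · have : (HahnSeries.C γ : LaurentSeries Qb) = algebraMap Qb (LaurentSeries Qb) γ := by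
        rw [algebraMap_laurentSeries_eq_single]; rfl
      rw [this]
      exact (FF Qb _).algebraMap_mem _
    · exact coeffMap_mem_FF (algebraMap L Qb) _ α.2
  · rw [div_pow, ← hc]
    field_simp

end Fermat.Agent.GT.Glue
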