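import Fermat.Agent.GT.Glue.BuildLoc
import Fermat.Agent.GT.Glue.Inst

/-! GT-GLUE, file `Top`: the field `geo` of `Brg.GeoFam` for the family `Val.vfam`, from the concrete
exports of VAL and LOC (all of them hypotheses). -/

set_option autoImplicit false
set_option synthInstance.maxHeartbeats 400000
set_option linter.unusedSectionVars false

namespace Fermat.Agent.GT.Glue

open Fermat.Agent.GR Fermat.Agent.GR.E Fermat.Agent.GR.D.Vert Fermat.Agent.GT Fermat.Agent.GT.Val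
  Fermat.Agent.GT.EMB Fermat.Agent.GT.Loc Fermat.Agent.GT.Brg Fermat.Agent.GS ModularCurve

/-- What LOC has to provide for one chart (base function `t` of level `M0`). -/
structure LocIn {L L' : Type} [Field L] [Field L'] [Algebra L L'] (R : ValuationSubring L)
    [IsDiscreteValuationRing R] (R' : ValuationSubring L') [IsDiscreteValuationRing R']
    (q M0 : ℕ) [NeZero (q * M0)] [NeZero (q ^ 2 * M0)] (ζ : L'ˣ) (ϖ : R) (t : FF L M0) : Prop where
  ne_zero : t ≠ 0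
  three : letI := algFF L (dvd_q0 q M0); letI := algFF L (dvd_sq q M0)
    letI := algFF L (dvd_sq0 q M0)
    Three ϖ q (gaussO R M0) (gaussO R (q * M0)) (Ozero' R q M0) (vfam R R' q M0 ζ)
      (w1C R q M0) (w2C R q M0) t
  mid : letI := algFF L (dvd_q0 q M0); letI := algFF L (dvd_sq q M0)
    letI := algFF L (dvd_sq0 q M0)
    MidIn ϖ q (gaussO R (q * M0)) (vfam R R' q M0 ζ) (w1C R q M0) (w2C R q M0) t
  le_oo : ∀ x ∈ chart R ({up (dvd_q0 q M0) t} : Set (FF L (q * M0))), x ∈ gaussO R (q * M0)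
  le_z : ∀ x ∈ chart R ({up (dvd_q0 q M0) t} : Set (FF L (q * M0))), x ∈ Ozero' R q M0
  node : ∀ 𝔫 : Ideal (chart R ({up (dvd_q0 q M0) t} : Set (FF L (q * M0)))), 𝔫.IsMaximal →
    vert ϖ (gaussO R (q * M0)) (chart R ({up (dvd_q0 q M0) t} : Set (FF L (q * M0)))) ≤ 𝔫 →
    vert ϖ (Ozero' R q M0) (chart R ({up (dvd_q0 q M0) t} : Set (FF L (q * M0)))) ≤ 𝔫 →
    RegNode ϖ (gaussO R (q * M0)) (Ozero' R q M0)
      (chart R ({up (dvd_q0 q M0) t} : Set (FF L (q * M0)))) 𝔫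

set_option maxHeartbeats 2000000 in
/-- THE FIELD `geo` OF `Brg.GeoFam` for `𝒪 L = Val.vfam (RL A L) R' q N1 ζ'`, `c2 = q² - 1`. -/
theorem geo_conc {q N1 : ℕ} [NeZero q] [NeZero N1] [NeZero (q * N1)] [NeZero (q ^ 2 * N1)]
    (hq : q.Prime) {A : ValuationSubring Qb} (hA : A.LiesOverPrime q) (ζ : Qbˣ)
    (L : IntermediateField ℚ Qb) [IsDiscreteValuationRing (RL A L)]
    {L' : Type} [Field L'] [Algebra L L'] {R' : ValuationSubring L'} [IsDiscreteValuationRing R']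
    {ζ' : L'ˣ} (C : Ctx (RL A L) R' q N1 ζ' ((q : ℕ) : RL A L))
    (B : BaseHyp (RL A L) q N1 ((q : ℕ) : RL A L)) {t : FF L N1}
    (ht : TPar (RL A L) q N1 ((q : ℕ) : RL A L) t)
    (ht' : TPar (RL A L) q N1 ((q : ℕ) : RL A L) t⁻¹)
    (H : NormHyp q N1 ζ' (nm1C L q N1) (nm2C (RL A L) q N1))
    (Z0 : LocIn (RL A L) R' q N1 ζ' ((q : ℕ) : RL A L) t)
    (Z1 : LocIn (RL A L) R' q N1 ζ' ((q : ℕ) : RL A L) t⁻¹)
    (hN1 : ∀ x : FF L (q ^ 2 * N1),
      coeffMap (algebraMap L Qb) (nm1C L q N1 x : LaurentSeries L) =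
      ((normFF Qb (N := q * N1) (N' := q ^ 2 * N1) ⟨q, by ring⟩
        (mapFF (algebraMap L Qb) (q ^ 2 * N1) x) : FF Qb (q * N1)) : LaurentSeries Qb))
    (hN2 : ∀ x : FF L (q ^ 2 * N1),
      coeffMap (algebraMap L Qb) (nm2C (RL A L) q N1 x : LaurentSeries L) =
      normT q ζ (coeffMap (algebraMap L Qb) (x : LaurentSeries L)))
    (n : ℕ) (hn : ¬ q ∣ n) (w : FF L (q ^ 2 * N1))
    (hw : ∀ i : Fin 3, w - 1 ∈ (vfam (RL A L) R' q N1 ζ' i).nonunits)
    (hdiv : DivisibleAtPlaces (RL A L) n w) (hNT : NormTriv q N1 n ζ L w) :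
    KummerEquiv (q ^ 2 * N1) n 1
      (coeffMap (algebraMap L Qb) (w : LaurentSeries L) ^ (q ^ 2 - 1)) := by
  obtain ⟨P0, G0⟩ := export_conc C.irr Z0.ne_zero Z0.three Z0.mid Z0.le_oo Z0.le_z Z0.node
  obtain ⟨P1, G1⟩ := export_conc C.irr Z1.ne_zero Z1.three Z1.mid Z1.le_oo Z1.le_z Z1.node
  exact geo_of_geoData hq hA ζ L C.irr (geoData_conc C B ht ht' H P0 P1 G0 G1) hN1 hN2 n hn w hw
    hdiv hNT

end Fermat.Agent.GT.Glue
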