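import Fermat.Agent.GT.Glue.Defs
import Fermat.Agent.GT.Abs.LocGen

/-!
# GT-GLUE: `GeoData` = everything the geometry (VAL + LOC) has to provide, in abstract form

To be instantiated with `R = A.comap (algebraMap L Qb)`, `ϖ = q`, `F = FF L (q² N₁)`,
`F' = FF L (q N₁)`, `φ1` = inclusion, `N1` = `normFF`, `φ2 = qExpand q`, `N2 = normT q ζ`,
`h` = the base function `h_r`.
-/

set_option autoImplicit false

namespace Fermat.Agent.GT.Glue

open Fermat.Agent.GR.E Fermat.Agent.GS Fermat.Agent.GT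

variable {R : Type*} [CommRing R] {F F' : Type*} [Field F] [Field F'] [Algebra R F] [Algebra R F']

/-- An element of the residue field of `O'` whose `n`-th power is a nonzero constant is a
constant (`n` invertible). -/
def ConstRes (R : Type*) [CommRing R] {F' : Type*} [Field F'] [Algebra R F']
    (O' : ValuationSubring F') : Prop :=
  ∀ (y : F') (n : ℕ) (κ : R), IsUnit (n : R) → IsUnit κ →
    y ^ n - algebraMap R F' κ ∈ O'.nonunits → ∃ β : R, y - algebraMap R F' β ∈ O'.nonunits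

/-- One of the vertical primes through each closed point of the special fibre is principal
at the point. -/
def RegPts {ι : Type*} (ϖ : R) (𝒪 : ι → ValuationSubring F) (C : Subalgebra R F) : Prop :=
  ∀ (𝔪 : Ideal C), 𝔪.IsMaximal → algebraMap R C ϖ ∈ 𝔪 →
    ∃ i, vertI (𝒪 i) C ≤ 𝔪 ∧ ∃ X : C, PrincipalAt (𝒪 i) C 𝔪 X

/-- THE GEOMETRIC INPUT of GLUE. Indices: `ii = ∞`, `im = mid`, `iz = 0`; `Oi' = ∞'`,
`Oz' = 0'`. -/
structure GeoData {ι : Type*} (ϖ : R) (𝒪 : ι → ValuationSubring F) (ii im iz : ι) (q : ℕ)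
    (Oi' Oz' : ValuationSubring F') (φ1 φ2 : F' →ₐ[R] F) (N1 N2 : F →* F') (h : F) : Prop where
  idx : ∀ i, i = ii ∨ i = im ∨ i = iz
  ne_im : ii ≠ im
  ne_iz : ii ≠ iz
  ne_mz : im ≠ iz
  vert : VertFam ϖ 𝒪
  h_mem : ∀ i, h ∈ 𝒪 i
  h_inv_mem : ∀ i, h⁻¹ ∈ 𝒪 i
  h_transc : Transcendental R h
  chart0 : MultiChart ϖ 𝒪 (chart R ({h} : Set F))
  chart1 : MultiChart ϖ 𝒪 (chart R ({h⁻¹} : Set F))
  fin : Module.Finite (Algebra.adjoin R ({h} : Set F))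
    (integralClosure (Algebra.adjoin R ({h} : Set F)) F)
  gauss_i' : GaussRing ϖ Oi'
  gauss_z' : GaussRing ϖ Oz'
  mem_i' : ∀ r : R, algebraMap R F' r ∈ Oi'
  mem_z' : ∀ r : R, algebraMap R F' r ∈ Oz'
  const_i' : ConstRes R Oi'
  const_z' : ConstRes R Oz'
  nv1 : NormVal q φ1 N1 (𝒪 iz) (𝒪 ii) (𝒪 im) Oz' Oi'
  nv2 : NormVal q φ2 N2 (𝒪 ii) (𝒪 iz) (𝒪 im) Oi' Oz'
  pts0 : PointsOK ϖ 𝒪 ii im iz Oi' Oz' φ1 φ2 N1 N2 (chart R ({h} : Set F))
  pts1 : PointsOK ϖ 𝒪 ii im iz Oi' Oz' φ1 φ2 N1 N2 (chart R ({h⁻¹} : Set F))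
  reg0 : RegPts ϖ 𝒪 (chart R ({h} : Set F))
  reg1 : RegPts ϖ 𝒪 (chart R ({h⁻¹} : Set F))

/-- `v` is a constant of `Frac R` times an `n`-th power. -/
def ConstPow (R : Type*) [CommRing R] {F' : Type*} [Field F'] [Algebra R F'] (n : ℕ) (v : F') :
    Prop :=
  ∃ (r s : R) (z : F'), r ≠ 0 ∧ s ≠ 0 ∧ v * algebraMap R F' s = algebraMap R F' r * z ^ n

end Fermat.Agent.GT.Glue
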