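import Fermat.Agent.GT.Abs.Defs

/-!
# Project GT, module GLUE: definitions

`F` is the function field of level `q² N₁`, `F'` the one of level `q N₁`, both over `Frac R`.
There are two pairs `(φ, Nm)`, `φ : F' → F` an embedding, `Nm : F → F'` the norm along `φ`:

* `N₁` : `φ` the inclusion; `ins = 0` over `0'`, `(a, b) = (∞, mid)` over `∞'`;
* `N₂` : `φ = B_q` (`t ↦ t ^ q`); `ins = ∞` over `∞'`, `(a, b) = (0, mid)` over `0'`.

Over the vertical valuation ring `Oins'` of `F'` there is only `Oins` (`e = 1`, `f = q` purely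
inseparable); over `Oab'` there are `Oa` (`e = f = 1`) and `Ob` (`e = q - 1`, `f = 1`).
-/

set_option autoImplicit false

namespace Fermat.Agent.GT.Glue

open Fermat.Agent.GR.E Fermat.Agent.GS Fermat.Agent.GT

variable {R : Type*} [CommRing R] {F F' : Type*} [Field F] [Field F'] [Algebra R F] [Algebra R F']

/-- Reduction of a norm `Nm : F → F'` at the vertical valuation rings (GLOBAL data, from VAL). -/
structure NormVal (q : ℕ) (φ : F' →ₐ[R] F) (Nm : F →* F')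
    (Oins Oa Ob : ValuationSubring F) (Oins' Oab' : ValuationSubring F') : Prop where
  map_ins : ∀ y ∈ Oins'.nonunits, φ y ∈ Oins.nonunits
  map_a : ∀ y ∈ Oab'.nonunits, φ y ∈ Oa.nonunits
  map_b : ∀ y ∈ Oab'.nonunits, φ y ∈ Ob.nonunits
  comap_ins : ∀ y, φ y ∈ Oins.nonunits → y ∈ Oins'.nonunits
  /-- `f = q` purely inseparable: the residue of `Nm a` is the `q`-th power of that of `a`. -/
  red_ins : ∀ a ∈ Oins, φ (Nm a) - a ^ q ∈ Oins.nonunits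
  /-- `e f = 1 + (q - 1)`: the residue of `Nm a` is `ā_a * ā_b ^ (q - 1)`. -/
  red_ab : ∀ (a : F) (ya yb : F'), ya ∈ Oab' → yb ∈ Oab' → a - φ ya ∈ Oa.nonunits →
    a - φ yb ∈ Ob.nonunits → Nm a - ya * yb ^ (q - 1) ∈ Oab'.nonunits

/-- The LOCAL data at a crossing point: `Λ = locAt C 𝔪` (with `M` = membership in its maximal
ideal, `InMaxLoc C 𝔪`), `Λ'` the local ring of the image point at level `q N₁`. -/
structure NormLoc (φ : F' →ₐ[R] F) (Nm : F →* F') (Oins Oa Ob : ValuationSubring F)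
    (Oab' : ValuationSubring F') (Λ : Subalgebra R F) (M : F → Prop) (Λ' : Subalgebra R F') :
    Prop where
  /-- the three components pass through the point -/
  max_ins : ∀ x ∈ Λ, x ∈ Oins.nonunits → M x
  max_a : ∀ x ∈ Λ, x ∈ Oa.nonunits → M x
  max_b : ∀ x ∈ Λ, x ∈ Ob.nonunits → M x
  le_ins : ∀ x ∈ Λ, x ∈ Oins
  le_a : ∀ x ∈ Λ, x ∈ Oa
  le_b : ∀ x ∈ Λ, x ∈ Ob
  M_add : ∀ x y, M x → M y → M (x + y)
  M_mul : ∀ x y, x ∈ Λ → M y → M (x * y)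
  M_mem : ∀ x, M x → x ∈ Λ
  map_mem : ∀ y ∈ Λ', φ y ∈ Λ
  le_ab' : ∀ y ∈ Λ', y ∈ Oab'
  /-- there is only one point above the image point -/
  norm_mem : ∀ x ∈ Λ, Nm x ∈ Λ'
  closed' : ∀ (y : F') (n : ℕ), 0 < n → y ^ n ∈ Λ' → y ∈ Λ'
  /-- the components `a`, `b` map isomorphically to the component `ab'` -/
  lift_a : ∀ x ∈ Λ, ∃ y ∈ Λ', x - φ y ∈ Oa.nonunits
  lift_b : ∀ x ∈ Λ, ∃ y ∈ Λ', x - φ y ∈ Ob.nonunits

/-- The genuinely geometric part of `NormLoc` for `Λ = locAt C 𝔪` (from LOC): `Λ'` is the local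
ring of the image point of `𝔪` at level `q N₁`. -/
structure CrossLoc (φ : F' →ₐ[R] F) (Nm : F →* F') (Oa Ob : ValuationSubring F)
    (Oab' : ValuationSubring F') (Λ : Subalgebra R F) (Λ' : Subalgebra R F') : Prop where
  map_mem : ∀ y ∈ Λ', φ y ∈ Λ
  le_ab' : ∀ y ∈ Λ', y ∈ Oab'
  norm_mem : ∀ x ∈ Λ, Nm x ∈ Λ'
  closed' : ∀ (y : F') (n : ℕ), 0 < n → y ^ n ∈ Λ' → y ∈ Λ'
  lift_a : ∀ x ∈ Λ, ∃ y ∈ Λ', x - φ y ∈ Oa.nonunits
  lift_b : ∀ x ∈ Λ, ∃ y ∈ Λ', x - φ y ∈ Ob.nonunits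

/-- The closed points of the special fibre of the chart `C`: a point lies on exactly one component
or it is a crossing point of all three, with only one point above its two images at level
`q N₁`.  Indices: `ii = ∞`, `im = mid`, `iz = 0`; `Oi' = ∞'`, `Oz' = 0'`. -/
def PointsOK {ι : Type*} (ϖ : R) (𝒪 : ι → ValuationSubring F) (ii im iz : ι)
    (Oi' Oz' : ValuationSubring F') (φ1 φ2 : F' →ₐ[R] F) (N1 N2 : F →* F')
    (C : Subalgebra R F) : Prop :=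
  ∀ (𝔪 : Ideal C) (h𝔪 : 𝔪.IsMaximal), algebraMap R C ϖ ∈ 𝔪 →
    (∃ i₁, ∀ i, vertI (𝒪 i) C ≤ 𝔪 → i = i₁) ∨
    ((∀ i, vertI (𝒪 i) C ≤ 𝔪) ∧
      (∃ Λ' : Subalgebra R F', haveI := h𝔪.isPrime;
        CrossLoc φ1 N1 (𝒪 ii) (𝒪 im) Oi' (locAt C 𝔪) Λ') ∧
      (∃ Λ' : Subalgebra R F', haveI := h𝔪.isPrime;
        CrossLoc φ2 N2 (𝒪 iz) (𝒪 im) Oz' (locAt C 𝔪) Λ'))

/-- (LF) `w` is locally (at the closed points of the special fibre) a unit times an `n`-th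
power. -/
def LocFree (ϖ : R) (C : Subalgebra R F) (n : ℕ) (w : F) : Prop :=
  ∀ (𝔪 : Ideal C) (h𝔪 : 𝔪.IsMaximal), algebraMap R C ϖ ∈ 𝔪 →
    haveI := h𝔪.isPrime; ∃ a : F, a ≠ 0 ∧ a ^ n * w ∈ locAt C 𝔪 ∧ (a ^ n * w)⁻¹ ∈ locAt C 𝔪

end Fermat.Agent.GT.Glue
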