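import Fermat.Agent.GT.Glue.Loc

/-! GT-GLUE, file `Beta`: three auxiliary statements for `AbsMain`. -/

set_option autoImplicit false

namespace Fermat.Agent.GT.Glue

open Fermat.Agent.GR.E Fermat.Agent.GS Fermat.Agent.GT

variable {R : Type*} [CommRing R] [IsDomain R] [IsDiscreteValuationRing R]
variable {F F' : Type*} [Field F] [Field F'] [Algebra R F] [Algebra R F'] {ι : Type*}
variable {ϖ : R} {𝒪 : ι → ValuationSubring F}

omit [IsDomain R] [IsDiscreteValuationRing R] in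
/-- `CrossLoc` + generalities on `locAt` give `NormLoc`. -/
theorem normLoc_of_crossLoc {φ : F' →ₐ[R] F} {Nm : F →* F'} {Oins Oa Ob : ValuationSubring F}
    {Oab' : ValuationSubring F'} {C : Subalgebra R F} {𝔪 : Ideal C} [𝔪.IsPrime]
    (hleins : ∀ x ∈ C, x ∈ Oins) (hlea : ∀ x ∈ C, x ∈ Oa) (hleb : ∀ x ∈ C, x ∈ Ob)
    (hins : vertI Oins C ≤ 𝔪) (ha : vertI Oa C ≤ 𝔪) (hb : vertI Ob C ≤ 𝔪)
    {Λ' : Subalgebra R F'} (h : CrossLoc φ Nm Oa Ob Oab' (locAt C 𝔪) Λ') :
    NormLoc φ Nm Oins Oa Ob Oab' (locAt C 𝔪) (InMaxLoc C 𝔪) Λ' where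
  max_ins := fun _ hx hx' => inMaxLoc_of_mem_nonunits hleins hins hx hx'
  max_a := fun _ hx hx' => inMaxLoc_of_mem_nonunits hlea ha hx hx'
  max_b := fun _ hx hx' => inMaxLoc_of_mem_nonunits hleb hb hx hx'
  le_ins := locAt_le_of_vertI_le hleins hins
  le_a := locAt_le_of_vertI_le hlea ha
  le_b := locAt_le_of_vertI_le hleb hb
  M_add := fun _ _ hx hy => inMaxLoc_add hx hy
  M_mul := fun _ _ hx hy => inMaxLoc_mul hx hy
  M_mem := fun _ hx => inMaxLoc_mem hx
  map_mem := h.map_mem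
  le_ab' := h.le_ab'
  norm_mem := h.norm_mem
  closed' := h.closed'
  lift_a := h.lift_a
  lift_b := h.lift_b

section Aux

variable {E : Type*} [Field E]

theorem Beta_add_mem {V : ValuationSubring E} {a b : E} (ha : a ∈ V.nonunits)
    (hb : b ∈ V.nonunits) : a + b ∈ V.nonunits := by
  rw [ValuationSubring.mem_nonunits_iff] at ha hb ⊢
  exact lt_of_le_of_lt (V.valuation.map_add _ _) (max_lt ha hb)

theorem Beta_mul_mem {V : ValuationSubring E} {c a : E} (hc : c ∈ V)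
    (ha : a ∈ V.nonunits) : c * a ∈ V.nonunits := by
  rw [ValuationSubring.mem_nonunits_iff] at ha ⊢
  rw [map_mul]
  exact lt_of_le_of_lt (mul_le_of_le_one_left' ((V.valuation_le_one_iff _).2 hc)) ha

theorem Beta_neg_mem {V : ValuationSubring E} {a : E} (ha : a ∈ V.nonunits) :
    -a ∈ V.nonunits := by
  rw [ValuationSubring.mem_nonunits_iff] at ha ⊢
  rwa [Valuation.map_neg]

theorem Beta_mem_of_nonunits {V : ValuationSubring E} {a : E} (ha : a ∈ V.nonunits) : a ∈ V := by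
  rw [ValuationSubring.mem_nonunits_iff] at ha
  exact (V.valuation_le_one_iff _).1 ha.le

theorem Beta_one_notMem (V : ValuationSubring E) : (1 : E) ∉ V.nonunits := by
  rw [ValuationSubring.mem_nonunits_iff, map_one]
  exact lt_irrefl _

/-- congruent elements have congruent powers. -/
theorem Beta_pow_sub_pow_mem {V : ValuationSubring E} {x y : E} (hy : y ∈ V)
    (h : x - y ∈ V.nonunits) (n : ℕ) : x ^ n - y ^ n ∈ V.nonunits := by
  have hx : x ∈ V := by
    have := V.add_mem _ _ (Beta_mem_of_nonunits h) hy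
    rwa [sub_add_cancel] at this
  rw [← (Commute.all x y).geom_sum₂_mul n]
  exact Beta_mul_mem (V.toSubring.sum_mem fun i _ =>
    V.mul_mem _ _ (V.pow_mem hx _) (V.pow_mem hy _)) h

end Aux

/-- `R ∩ 𝔪(V) = ϖ R`. -/
theorem dvd_of_mem_nonunits (hϖ : Irreducible ϖ) {V : ValuationSubring F'}
    (hR : ∀ r : R, algebraMap R F' r ∈ V) {r : R} (hr : algebraMap R F' r ∈ V.nonunits) :
    ϖ ∣ r := by
  by_contra hnd
  have hu : IsUnit r := by
    rw [← IsLocalRing.notMem_maximalIdeal, hϖ.maximalIdeal_eq, Ideal.mem_span_singleton]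
    exact hnd
  obtain ⟨s, hs⟩ := hu.exists_left_inv
  have h1 : algebraMap R F' s * algebraMap R F' r ∈ V.nonunits := Beta_mul_mem (hR s) hr
  rw [← map_mul, hs, map_one] at h1
  exact Beta_one_notMem V h1

/-- one valuation ring at a time. -/
theorem Beta_aux (hϖ : Irreducible ϖ) {V : ValuationSubring F'}
    (hR : ∀ r : R, algebraMap R F' r ∈ V) {n : ℕ} (hn : 0 < n) {N : F'}
    (hN : N - 1 ∈ V.nonunits) {κ : R} (hκ : IsUnit κ) {b : F'}
    (hb : N * b ^ n = algebraMap R F' κ) {β : R} (hbβ : b - algebraMap R F' β ∈ V.nonunits) :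
    ϖ ∣ β ^ n - κ ∧ IsUnit β := by
  have hbV : b ∈ V := by
    have := V.add_mem _ _ (Beta_mem_of_nonunits hbβ) (hR β)
    rwa [sub_add_cancel] at this
  have h1 : b ^ n - algebraMap R F' β ^ n ∈ V.nonunits := Beta_pow_sub_pow_mem (hR β) hbβ n
  have h2 : b ^ n * (N - 1) ∈ V.nonunits := Beta_mul_mem (V.pow_mem hbV n) hN
  have h3 : algebraMap R F' (β ^ n - κ) ∈ V.nonunits := by
    have e : algebraMap R F' (β ^ n - κ) =
        -((b ^ n - algebraMap R F' β ^ n) + b ^ n * (N - 1)) := by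
      rw [map_sub, map_pow, ← hb]
      ring
    rw [e]
    exact Beta_neg_mem (Beta_add_mem h1 h2)
  have hdvd : ϖ ∣ β ^ n - κ := dvd_of_mem_nonunits hϖ hR h3
  refine ⟨hdvd, ?_⟩
  by_contra hnu
  have hβ : ϖ ∣ β := by
    rw [← IsLocalRing.notMem_maximalIdeal, not_not, hϖ.maximalIdeal_eq,
      Ideal.mem_span_singleton] at hnu
    exact hnu
  have h4 : ϖ ∣ β ^ n := dvd_pow hβ hn.ne'
  have h5 : ϖ ∣ κ := by
    have := dvd_sub h4 hdvd
    rwa [sub_sub_cancel] at this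
  exact hϖ.not_isUnit (isUnit_of_dvd_unit h5 hκ)

/-- the two residue constants of `b` have the same `n`-th power modulo `ϖ`, and are units. -/
theorem beta_pow_cong (hϖ : Irreducible ϖ) {q : ℕ} {φ : F' →ₐ[R] F} {Nm : F →* F'}
    {Oins Oa Ob : ValuationSubring F} {Oins' Oab' : ValuationSubring F'}
    (hV : NormVal q φ Nm Oins Oa Ob Oins' Oab')
    (hRins : ∀ r : R, algebraMap R F' r ∈ Oins') (hRab : ∀ r : R, algebraMap R F' r ∈ Oab')
    {n : ℕ} (hn : 0 < n) {w : F} (hwins : w - 1 ∈ Oins.nonunits) (hwa : w - 1 ∈ Oa.nonunits)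
    (hwb : w - 1 ∈ Ob.nonunits)
    {κ : R} (hκ : IsUnit κ) {b : F'} (hb : Nm w * b ^ n = algebraMap R F' κ)
    {βab βins : R} (hbab : b - algebraMap R F' βab ∈ Oab'.nonunits)
    (hbins : b - algebraMap R F' βins ∈ Oins'.nonunits) :
    ϖ ∣ βab ^ n - κ ∧ ϖ ∣ βins ^ n - κ ∧ IsUnit βab ∧ IsUnit βins := by
  have hNab : Nm w - 1 ∈ Oab'.nonunits := by
    have h := hV.red_ab w 1 1 Oab'.one_mem Oab'.one_mem (by rwa [map_one]) (by rwa [map_one])
    rwa [one_pow, mul_one] at h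
  have hNins : Nm w - 1 ∈ Oins'.nonunits := by
    apply hV.comap_ins
    have hw : w ∈ Oins := by
      have := Oins.add_mem _ _ (Beta_mem_of_nonunits hwins) Oins.one_mem
      rwa [sub_add_cancel] at this
    have h1 := hV.red_ins w hw
    have h2 : w ^ q - 1 ^ q ∈ Oins.nonunits := Beta_pow_sub_pow_mem Oins.one_mem hwins q
    have e : φ (Nm w - 1) = (φ (Nm w) - w ^ q) + (w ^ q - 1 ^ q) := by
      rw [map_sub, map_one, one_pow]
      ring
    rw [e]
    exact Beta_add_mem h1 h2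
  obtain ⟨h1, h2⟩ := Beta_aux hϖ hRab hn hNab hκ hb hbab
  obtain ⟨h3, h4⟩ := Beta_aux hϖ hRins hn hNins hκ hb hbins
  exact ⟨h1, h3, h2, h4⟩

end Fermat.Agent.GT.Glue
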