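import Fermat.Agent.GT.Glue.Defs

/-! GT-GLUE, file `Const`: the two gluing relations make the `(q² - 1)`-st powers of the gluing
constants independent of the crossing point. -/

set_option autoImplicit false

namespace Fermat.Agent.GT.Glue

open Fermat.Agent.GR.E Fermat.Agent.GS Fermat.Agent.GT

variable {R : Type*} [CommRing R] {F : Type*} [Field F] [Algebra R F] {ι : Type*}

/-! ### pure algebra in the residue field, written with congruences -/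

/-- `a ≡ b` implies `a ^ q ≡ b ^ q`. -/
theorem const_pow_sub_pow {Λ : Subalgebra R F} {M : F → Prop}
    (M_mul : ∀ x y, x ∈ Λ → M y → M (x * y)) {a b : F} (ha : a ∈ Λ) (hb : b ∈ Λ)
    (h : M (a - b)) (q : ℕ) : M (a ^ q - b ^ q) := by
  obtain ⟨c, hc⟩ := sub_dvd_pow_sub_pow (⟨a, ha⟩ : Λ) ⟨b, hb⟩ q
  have hc' : a ^ q - b ^ q = (c : F) * (a - b) := by
    have := congrArg (fun z : Λ => (z : F)) hc
    simp only [Subalgebra.coe_sub, Subalgebra.coe_pow, Subalgebra.coe_mul] at this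
    rw [this, mul_comm]
  rw [hc']
  exact M_mul _ _ c.2 h

/-- one half of `const_of_relations`. -/
theorem const_of_relations_aux {Λ : Subalgebra R F} {M : F → Prop}
    (M_add : ∀ x y, M x → M y → M (x + y)) (M_mul : ∀ x y, x ∈ Λ → M y → M (x * y))
    {q : ℕ} (hq : 2 ≤ q) {xi xm xz B1 B1' B2 B2' : F} (hxi0 : xi ≠ 0)
    (hxi : xi ∈ Λ) (hxm : xm ∈ Λ) (hxz : xz ∈ Λ) (hxi' : xi⁻¹ ∈ Λ)
    (hB1' : B1' ∈ Λ) (hB2 : B2 ∈ Λ) (hB2' : B2' ∈ Λ)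
    (r1 : M (xi * xm ^ (q - 1) * B1 - xz ^ q * B1'))
    (r2 : M (xz * xm ^ (q - 1) * B2 - xi ^ q * B2')) :
    M (xi ^ (q ^ 2 - 1) * (B1' * B2' ^ q) - xm ^ (q ^ 2 - 1) * (B1 * B2 ^ q)) := by
  have ha : xz * xm ^ (q - 1) * B2 ∈ Λ := Λ.mul_mem (Λ.mul_mem hxz (Λ.pow_mem hxm _)) hB2
  have hb : xi ^ q * B2' ∈ Λ := Λ.mul_mem (Λ.pow_mem hxi _) hB2'
  have h2 := const_pow_sub_pow M_mul ha hb r2 q
  have e1 : q ^ 2 - 1 = (q - 1) + q * (q - 1) := by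
    obtain ⟨k, rfl⟩ : ∃ k, q = k + 1 := ⟨q - 1, by omega⟩
    have : (k + 1) ^ 2 = (k + (k + 1) * k) + 1 := by ring
    rw [this]
    simp
  have e2 : q ^ 2 = (q ^ 2 - 1) + 1 := by
    have : 0 < q ^ 2 := by positivity
    omega
  have key : xi ^ (q ^ 2 - 1) * (B1' * B2' ^ q) - xm ^ (q ^ 2 - 1) * (B1 * B2 ^ q) =
      (xi⁻¹ * (-B1')) * ((xz * xm ^ (q - 1) * B2) ^ q - (xi ^ q * B2') ^ q) +
      (xi⁻¹ * (-(xm ^ (q * (q - 1)) * B2 ^ q))) *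
        (xi * xm ^ (q - 1) * B1 - xz ^ q * B1') := by
    have h3 : (xi ^ q) ^ q = xi ^ (q ^ 2 - 1) * xi := by
      rw [← pow_mul, ← pow_succ, ← e2, sq]
    have h4 : xm ^ (q ^ 2 - 1) = xm ^ (q - 1) * xm ^ (q * (q - 1)) := by
      rw [← pow_add, ← e1]
    have h5 : (xm ^ (q - 1)) ^ q = xm ^ (q * (q - 1)) := by
      rw [← pow_mul, mul_comm]
    rw [mul_pow, mul_pow, mul_pow, h3, h4, h5]
    field_simp
    ring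
  rw [key]
  refine M_add _ _ (M_mul _ _ ?_ h2) (M_mul _ _ ?_ r1)
  · exact Λ.mul_mem hxi' (Λ.neg_mem hB1')
  · exact Λ.mul_mem hxi' (Λ.neg_mem (Λ.mul_mem (Λ.pow_mem hxm _) (Λ.pow_mem hB2 _)))

/-- (G3-alg) In a local ring `(Λ, M)`: units `x∞ xm x0`, constants `B₁ B₁' B₂ B₂'` (units) with
`x∞ xm^(q-1) B₁ ≡ x0^q B₁'` and `x0 xm^(q-1) B₂ ≡ x∞^q B₂'`.  Then
`x∞^(q²-1) B₁' B₂'^q ≡ xm^(q²-1) B₁ B₂^q` and `x0^(q²-1) B₂' B₁'^q ≡ xm^(q²-1) B₂ B₁^q`.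
(The hypotheses `xi ≠ 0`, `xz ≠ 0` are necessary: `0⁻¹ = 0 ∈ Λ`.) -/
theorem const_of_relations {Λ : Subalgebra R F} {M : F → Prop}
    (M_add : ∀ x y, M x → M y → M (x + y)) (M_mul : ∀ x y, x ∈ Λ → M y → M (x * y))
    (M_unit : ∀ x ∈ Λ, M x ∨ x⁻¹ ∈ Λ) (M_one : ¬ M 1)
    {q : ℕ} (hq : 2 ≤ q) {xi xm xz B1 B1' B2 B2' : F} (hxi0 : xi ≠ 0) (hxz0 : xz ≠ 0)
    (hxi : xi ∈ Λ) (hxm : xm ∈ Λ) (hxz : xz ∈ Λ) (hxi' : xi⁻¹ ∈ Λ) (hxm' : xm⁻¹ ∈ Λ)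
    (hxz' : xz⁻¹ ∈ Λ) (hB1 : B1 ∈ Λ) (hB1' : B1' ∈ Λ) (hB2 : B2 ∈ Λ) (hB2' : B2' ∈ Λ)
    (r1 : M (xi * xm ^ (q - 1) * B1 - xz ^ q * B1'))
    (r2 : M (xz * xm ^ (q - 1) * B2 - xi ^ q * B2')) :
    M (xi ^ (q ^ 2 - 1) * (B1' * B2' ^ q) - xm ^ (q ^ 2 - 1) * (B1 * B2 ^ q)) ∧
    M (xz ^ (q ^ 2 - 1) * (B2' * B1' ^ q) - xm ^ (q ^ 2 - 1) * (B2 * B1 ^ q)) :=
  ⟨const_of_relations_aux M_add M_mul hq hxi0 hxi hxm hxz hxi' hB1' hB2 hB2' r1 r2,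
    const_of_relations_aux M_add M_mul hq hxz0 hxz hxm hxi hxz' hB2' hB1 hB1' r2 r1⟩

end Fermat.Agent.GT.Glue
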