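import Fermat.Agent.GT.Glue.Rep
import Fermat.Agent.GT.Glue.Const

/-! GT-GLUE, file `Cross`: `LocalTriv` with CONSTANT gluing constants for `w ^ (q² - 1)` at a
crossing point. -/

set_option autoImplicit false

namespace Fermat.Agent.GT.Glue

open Fermat.Agent.GR.E Fermat.Agent.GS Fermat.Agent.GT

variable {R : Type*} [CommRing R] {F : Type*} [Field F] [Algebra R F] {ι : Type*}
variable {ϖ : R} {𝒪 : ι → ValuationSubring F}

/-- a representative of the residue of `a ≠ 0` is nonzero (`a ^ n * w` being a unit at `𝔪`). -/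
theorem Cross_rep_ne_zero {C : Subalgebra R F} (hC : MultiChart ϖ 𝒪 C) (𝔪 : Ideal C) [𝔪.IsPrime]
    (i : ι) (hi : vertI (𝒪 i) C ≤ 𝔪) {n : ℕ} (hn : 0 < n) {a w : F} (ha0 : a ≠ 0)
    (hw : w - 1 ∈ (𝒪 i).nonunits) (h1 : a ^ n * w ∈ locAt C 𝔪) (h2 : (a ^ n * w)⁻¹ ∈ locAt C 𝔪)
    {x : F} (hx : a - x ∈ (𝒪 i).nonunits) : x ≠ 0 := by
  rintro rfl
  rw [sub_zero] at hx
  have hwm : w ∈ 𝒪 i := cong_mem (𝒪 i).one_mem hw
  have hw0 : w ≠ 0 := by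
    rintro rfl
    rw [zero_sub] at hw
    have h3 := nonunits_neg hw
    rw [neg_neg, ValuationSubring.mem_nonunits_iff, map_one] at h3
    exact lt_irrefl _ h3
  have h7 : a ^ n * w ∈ (𝒪 i).nonunits := by
    have h9 : a ^ n * w = (a ^ (n - 1) * w) * a := by
      have : a ^ n = a ^ (n - 1) * a := by rw [← pow_succ, Nat.sub_add_cancel hn]
      rw [this]
      ring
    rw [h9]
    exact nonunits_mul_left (mul_mem (pow_mem (nonunits_mem hx) _) hwm) hx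
  have h10 := inMaxLoc_of_mem_nonunits (hC.le i) hi h1 h7
  have h11 := inMaxLoc_mul h2 h10
  rw [inv_mul_cancel₀ (mul_ne_zero (pow_ne_zero _ ha0) hw0)] at h11
  exact not_inMaxLoc_one h11

/-- (Triv-3) a crossing point: the two relations give `LocalTriv` for `w ^ (q² - 1)` with the
constants `ζ ∞ = B₁ B₂^q / (B₁' B₂'^q)`, `ζ mid = 1`, `ζ 0 = B₂ B₁^q / (B₂' B₁'^q)`. -/
theorem localTriv_cross {C : Subalgebra R F} (hC : MultiChart ϖ 𝒪 C) (𝔪 : Ideal C)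
    (h𝔪 : 𝔪.IsMaximal) (ii im iz : ι) (hι : ∀ i, i = ii ∨ i = im ∨ i = iz)
    (hall : ∀ i, vertI (𝒪 i) C ≤ 𝔪)
    {n : ℕ} (hn : 0 < n) {w : F} (hw : ∀ i, w - 1 ∈ (𝒪 i).nonunits) {q : ℕ} (hq : 2 ≤ q)
    (ζ : ι → R) {B1 B1' B2 B2' : R} (hζi : ζ ii * (B1' * B2' ^ q) = B1 * B2 ^ q) (hζm : ζ im = 1)
    (hζz : ζ iz * (B2' * B1' ^ q) = B2 * B1 ^ q) (hB1' : IsUnit B1') (hB2' : IsUnit B2')
    {a : F} (ha0 : a ≠ 0) (h1 : haveI := h𝔪.isPrime; a ^ n * w ∈ locAt C 𝔪)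
    (h2 : haveI := h𝔪.isPrime; (a ^ n * w)⁻¹ ∈ locAt C 𝔪)
    (hrel : haveI := h𝔪.isPrime; ∀ xi ∈ locAt C 𝔪, ∀ xm ∈ locAt C 𝔪, ∀ xz ∈ locAt C 𝔪,
      a - xi ∈ (𝒪 ii).nonunits → a - xm ∈ (𝒪 im).nonunits → a - xz ∈ (𝒪 iz).nonunits →
      InMaxLoc C 𝔪 (xi * xm ^ (q - 1) * algebraMap R F B1 - xz ^ q * algebraMap R F B1') ∧
      InMaxLoc C 𝔪 (xz * xm ^ (q - 1) * algebraMap R F B2 - xi ^ q * algebraMap R F B2')) :
    haveI := h𝔪.isPrime; LocalTriv 𝒪 ζ C n (w ^ (q ^ 2 - 1)) 𝔪 := by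
  have := h𝔪.isPrime
  set Λ := locAt C 𝔪 with hΛ
  set c := q ^ 2 - 1 with hc
  obtain ⟨xi, hxi, hxi', hai⟩ := exists_rep hC 𝔪 ii (hall ii) hn (hw ii) h1 h2
  obtain ⟨xm, hxm, hxm', ham⟩ := exists_rep hC 𝔪 im (hall im) hn (hw im) h1 h2
  obtain ⟨xz, hxz, hxz', haz⟩ := exists_rep hC 𝔪 iz (hall iz) hn (hw iz) h1 h2
  have hxm0 : xm ≠ 0 := Cross_rep_ne_zero hC 𝔪 im (hall im) hn ha0 (hw im) h1 h2 ham
  have hxi0 : xi ≠ 0 := Cross_rep_ne_zero hC 𝔪 ii (hall ii) hn ha0 (hw ii) h1 h2 hai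
  have hxz0 : xz ≠ 0 := Cross_rep_ne_zero hC 𝔪 iz (hall iz) hn ha0 (hw iz) h1 h2 haz
  obtain ⟨r1, r2⟩ := hrel xi hxi xm hxm xz hxz hai ham haz
  obtain ⟨k1, k2⟩ := const_of_relations (Λ := Λ) (M := InMaxLoc C 𝔪)
    (fun _ _ => inMaxLoc_add) (fun _ _ => inMaxLoc_mul) (fun _ hx => inMaxLoc_or_inv_mem hx)
    not_inMaxLoc_one hq hxi0 hxz0 hxi hxm hxz hxi' hxm' hxz' (Λ.algebraMap_mem B1) (Λ.algebraMap_mem B1')
    (Λ.algebraMap_mem B2) (Λ.algebraMap_mem B2') r1 r2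
  obtain ⟨c0, hc0⟩ := exists_mem_chart_cong h𝔪 (x := xm ^ c) (Λ.pow_mem hxm c)
  have hc0m : c0 ∉ 𝔪 := by
    intro h
    have h3 : InMaxLoc C 𝔪 (c0 : F) := (inMaxLoc_coe_iff c0).2 h
    have h4 : InMaxLoc C 𝔪 (xm ^ c) := by
      have := inMaxLoc_add hc0 h3
      rwa [sub_add_cancel] at this
    have h5 : InMaxLoc C 𝔪 (xm⁻¹ ^ c * xm ^ c) := inMaxLoc_mul (Λ.pow_mem hxm' c) h4
    rw [← mul_pow, inv_mul_cancel₀ hxm0, one_pow] at h5
    exact not_inMaxLoc_one h5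
  -- the general step: from `x^c U ≡ xm^c V`, `ζ U = V`, `U` a unit of `R`
  have key : ∀ (x : F) (z U V : R), IsUnit U → z * U = V →
      InMaxLoc C 𝔪 (x * algebraMap R F U - xm ^ c * algebraMap R F V) →
      InMaxLoc C 𝔪 (x - algebraMap R F z * (c0 : F)) := by
    intro x z U V hU hz hM
    obtain ⟨U', hU'⟩ := hU.exists_right_inv
    have hUF : algebraMap R F U * algebraMap R F U' = 1 := by rw [← map_mul, hU', map_one]
    have h3 := inMaxLoc_mul (Λ.algebraMap_mem U') hM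
    have h4 := inMaxLoc_mul (Λ.algebraMap_mem z) hc0
    have h5 := inMaxLoc_add h3 h4
    have e : algebraMap R F U' * (x * algebraMap R F U - xm ^ c * algebraMap R F V) +
        algebraMap R F z * (xm ^ c - (c0 : F)) = x - algebraMap R F z * (c0 : F) := by
      rw [← hz, map_mul]
      linear_combination (x - xm ^ c * algebraMap R F z) * hUF
    rwa [e] at h5
  refine ⟨a ^ c, ?_, ?_, c0, hc0m, ?_⟩
  · have e : (a ^ c) ^ n * w ^ c = (a ^ n * w) ^ c := by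
      rw [mul_pow, ← pow_mul, ← pow_mul, mul_comm c n]
    rw [e]
    exact Λ.pow_mem h1 c
  · have e : ((a ^ c) ^ n * w ^ c)⁻¹ = ((a ^ n * w)⁻¹) ^ c := by
      rw [inv_pow, mul_pow, ← pow_mul, ← pow_mul, mul_comm c n]
    rw [e]
    exact Λ.pow_mem h2 c
  · intro i _
    rcases hι i with rfl | rfl | rfl
    · refine ⟨xi ^ c, Λ.pow_mem hxi c,
        cong_pow (locAt_le_of_vertI_le (hC.le _) (hall _) xi hxi) hai c, ?_⟩
      refine key (xi ^ c) (ζ _) (B1' * B2' ^ q) (B1 * B2 ^ q) (hB1'.mul (hB2'.pow q)) hζi ?_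
      simpa only [map_mul, map_pow] using k1
    · refine ⟨xm ^ c, Λ.pow_mem hxm c,
        cong_pow (locAt_le_of_vertI_le (hC.le _) (hall _) xm hxm) ham c, ?_⟩
      rw [hζm, map_one, one_mul]
      exact hc0
    · refine ⟨xz ^ c, Λ.pow_mem hxz c,
        cong_pow (locAt_le_of_vertI_le (hC.le _) (hall _) xz hxz) haz c, ?_⟩
      refine key (xz ^ c) (ζ _) (B2' * B1' ^ q) (B2 * B1 ^ q) (hB2'.mul (hB1'.pow q)) hζz ?_
      simpa only [map_mul, map_pow] using k2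

end Fermat.Agent.GT.Glue
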