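import Fermat.Agent.GT.Glue.Single
import Fermat.Agent.GT.Glue.Cross
import Fermat.Agent.GT.Glue.Beta
import Fermat.Agent.GT.Abs.Main
import Fermat.Agent.GR.E.E8

/-! GT-GLUE, file `AbsMain`: the abstract form of the end of the proof of (K'). -/

set_option autoImplicit false

namespace Fermat.Agent.GT.Glue

open Fermat.Agent.GR.E Fermat.Agent.GS Fermat.Agent.GT

/-- the gluing constants are `n`-th roots of unity modulo `ϖ`. -/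
theorem AbsMain_zeta {R : Type*} [CommRing R] {ϖ ζ B1 B1' B2 B2' κ1 κ2 : R} {n q : ℕ}
    (h : ζ * (B1' * B2' ^ q) = B1 * B2 ^ q) (h1 : ϖ ∣ B1 ^ n - κ1) (h1' : ϖ ∣ B1' ^ n - κ1)
    (h2 : ϖ ∣ B2 ^ n - κ2) (h2' : ϖ ∣ B2' ^ n - κ2) (hu1 : IsUnit B1') (hu2 : IsUnit B2') :
    ϖ ∣ ζ ^ n - 1 := by
  set π := Ideal.Quotient.mk (Ideal.span {ϖ}) with hπ
  have key : ∀ x y : R, ϖ ∣ x - y ↔ π x = π y := by
    intro x y
    rw [hπ, Ideal.Quotient.eq, Ideal.mem_span_singleton]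
  rw [key] at h1 h1' h2 h2' ⊢
  rw [map_pow] at h1 h1' h2 h2'
  have hU : IsUnit (π (B1' * B2' ^ q) ^ n) := ((hu1.mul (hu2.pow q)).map π).pow n
  have e1 : π ζ ^ n * π (B1' * B2' ^ q) ^ n = π (B1' * B2' ^ q) ^ n := by
    rw [← mul_pow, ← map_mul, h]
    simp only [map_mul, map_pow, mul_pow]
    rw [← pow_mul, ← pow_mul, mul_comm q n, pow_mul, pow_mul, h1, h2, h1', h2']
  rw [map_pow, map_one]
  exact hU.mul_right_cancel (by rw [e1, one_mul])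

variable {R : Type*} [CommRing R] [IsDomain R] [IsDiscreteValuationRing R]
variable {F F' : Type*} [Field F] [Field F'] [Algebra R F] [Algebra R F'] {ι : Type*}
variable {ϖ : R} {𝒪 : ι → ValuationSubring F}

omit [IsDomain R] [IsDiscreteValuationRing R] in
/-- `LocalTriv` at all the closed points of the special fibre of one chart. -/
theorem AbsMain_localTriv {C : Subalgebra R F} (hC : MultiChart ϖ 𝒪 C)
    (ii im iz : ι) (hι : ∀ i, i = ii ∨ i = im ∨ i = iz)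
    {q : ℕ} (hq : 2 ≤ q) {Oi' Oz' : ValuationSubring F'}
    {φ1 φ2 : F' →ₐ[R] F} {N1 N2 : F →* F'}
    (hV1 : NormVal q φ1 N1 (𝒪 iz) (𝒪 ii) (𝒪 im) Oz' Oi')
    (hV2 : NormVal q φ2 N2 (𝒪 ii) (𝒪 iz) (𝒪 im) Oi' Oz')
    (hP : PointsOK ϖ 𝒪 ii im iz Oi' Oz' φ1 φ2 N1 N2 C)
    {n : ℕ} (hn : 0 < n) {w : F} (hw : ∀ i, w - 1 ∈ (𝒪 i).nonunits)
    (hLF : LocFree ϖ C n w)
    {κ1 κ2 : R} (hκ1 : IsUnit κ1) (hκ2 : IsUnit κ2) {b1 b2 : F'}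
    (hb1 : N1 w * b1 ^ n = algebraMap R F' κ1) (hb2 : N2 w * b2 ^ n = algebraMap R F' κ2)
    {β1i β1z β2i β2z : R}
    (hb1i : b1 - algebraMap R F' β1i ∈ Oi'.nonunits) (hb1z : b1 - algebraMap R F' β1z ∈ Oz'.nonunits)
    (hb2i : b2 - algebraMap R F' β2i ∈ Oi'.nonunits)
    (hb2z : b2 - algebraMap R F' β2z ∈ Oz'.nonunits)
    (ζ : ι → R) (hζu : ∀ i, IsUnit (ζ i))
    (hζi : ζ ii * (β1i * β2z ^ q) = β1z * β2i ^ q) (hζm : ζ im = 1)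
    (hζz : ζ iz * (β2z * β1i ^ q) = β2i * β1z ^ q) (hu1 : IsUnit β1i) (hu2 : IsUnit β2z)
    (𝔪 : Ideal C) (h𝔪 : 𝔪.IsMaximal) (hm : algebraMap R C ϖ ∈ 𝔪) :
    haveI := h𝔪.isPrime; LocalTriv 𝒪 ζ C n (w ^ (q ^ 2 - 1)) 𝔪 := by
  have := h𝔪.isPrime
  rcases hP 𝔪 h𝔪 hm with ⟨i₁, hi₁⟩ | ⟨hall, ⟨Λ1, hΛ1⟩, ⟨Λ2, hΛ2⟩⟩
  · exact localTriv_single hC 𝔪 h𝔪 i₁ hi₁ hn hw (q ^ 2 - 1) ζ hζu (hLF 𝔪 h𝔪 hm)
  · obtain ⟨a, ha0, h1, h2⟩ := hLF 𝔪 h𝔪 hm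
    refine localTriv_cross hC 𝔪 h𝔪 ii im iz hι hall hn hw hq ζ hζi hζm hζz hu1 hu2 ha0 h1 h2 ?_
    intro xi hxi xm hxm xz hxz hai ham haz
    constructor
    · exact glue_relation hV1
        (normLoc_of_crossLoc (hC.le iz) (hC.le ii) (hC.le im) (hall iz) (hall ii) (hall im) hΛ1)
        hn h1 hκ1 hb1 hb1i hb1z hxz hxi hxm haz hai ham
    · exact glue_relation hV2
        (normLoc_of_crossLoc (hC.le ii) (hC.le iz) (hC.le im) (hall ii) (hall iz) (hall im) hΛ2)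
        hn h1 hκ2 hb2 hb2z hb2i hxi hxz hxm hai haz ham

/-- (G4) THE ABSTRACT MAIN THEOREM OF GLUE. -/
theorem glue_main [Finite ι] (hϖ : Irreducible ϖ) (hV : VertFam ϖ 𝒪)
    {h : F} (hh : ∀ i, h ∈ 𝒪 i) (hh' : ∀ i, h⁻¹ ∈ 𝒪 i) (h0 : h ≠ 0)
    (hC0 : MultiChart ϖ 𝒪 (chart R ({h} : Set F)))
    (hC1 : MultiChart ϖ 𝒪 (chart R ({h⁻¹} : Set F)))
    (hfin : Module.Finite (Algebra.adjoin R ({h} : Set F))
      (integralClosure (Algebra.adjoin R ({h} : Set F)) F))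
    (ii im iz : ι) (hι : ∀ i, i = ii ∨ i = im ∨ i = iz)
    (hne1 : ii ≠ im) (hne2 : ii ≠ iz) (hne3 : im ≠ iz)
    {q : ℕ} (hq : 2 ≤ q) {Oi' Oz' : ValuationSubring F'}
    (hRi : ∀ r : R, algebraMap R F' r ∈ Oi') (hRz : ∀ r : R, algebraMap R F' r ∈ Oz')
    {φ1 φ2 : F' →ₐ[R] F} {N1 N2 : F →* F'}
    (hV1 : NormVal q φ1 N1 (𝒪 iz) (𝒪 ii) (𝒪 im) Oz' Oi')
    (hV2 : NormVal q φ2 N2 (𝒪 ii) (𝒪 iz) (𝒪 im) Oi' Oz')
    (hP0 : PointsOK ϖ 𝒪 ii im iz Oi' Oz' φ1 φ2 N1 N2 (chart R ({h} : Set F)))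
    (hP1 : PointsOK ϖ 𝒪 ii im iz Oi' Oz' φ1 φ2 N1 N2 (chart R ({h⁻¹} : Set F)))
    {n : ℕ} (hn : IsUnit (n : R)) {w : F} (hw : ∀ i, w - 1 ∈ (𝒪 i).nonunits)
    (hLF0 : LocFree ϖ (chart R ({h} : Set F)) n w)
    (hLF1 : LocFree ϖ (chart R ({h⁻¹} : Set F)) n w)
    {κ1 κ2 : R} (hκ1 : IsUnit κ1) (hκ2 : IsUnit κ2) {b1 b2 : F'}
    (hb1 : N1 w * b1 ^ n = algebraMap R F' κ1) (hb2 : N2 w * b2 ^ n = algebraMap R F' κ2)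
    {β1i β1z β2i β2z : R}
    (hb1i : b1 - algebraMap R F' β1i ∈ Oi'.nonunits) (hb1z : b1 - algebraMap R F' β1z ∈ Oz'.nonunits)
    (hb2i : b2 - algebraMap R F' β2i ∈ Oi'.nonunits)
    (hb2z : b2 - algebraMap R F' β2z ∈ Oz'.nonunits) :
    ∃ a : F, a ≠ 0 ∧ a ^ n * w ^ (q ^ 2 - 1) ∈ chart R ({h} : Set F) ∧
      a ^ n * w ^ (q ^ 2 - 1) ∈ chart R ({h⁻¹} : Set F) := by
  classical
  have hn0 : 0 < n := by
    rcases Nat.eq_zero_or_pos n with rfl | h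
    · simp at hn
    · exact h
  -- the constants
  obtain ⟨c1i, c1z, u1i, u1z⟩ := beta_pow_cong hϖ hV1 hRz hRi hn0 (hw iz) (hw ii) (hw im) hκ1 hb1
    hb1i hb1z
  obtain ⟨c2z, c2i, u2z, u2i⟩ := beta_pow_cong hϖ hV2 hRi hRz hn0 (hw ii) (hw iz) (hw im) hκ2 hb2
    hb2z hb2i
  obtain ⟨Zi, hZi⟩ : ∃ Z : R, Z * (β1i * β2z ^ q) = β1z * β2i ^ q := by
    obtain ⟨v, hv⟩ := (u1i.mul (u2z.pow q)).exists_left_inv
    exact ⟨β1z * β2i ^ q * v, by rw [mul_assoc, hv, mul_one]⟩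
  obtain ⟨Zz, hZz⟩ : ∃ Z : R, Z * (β2z * β1i ^ q) = β2i * β1z ^ q := by
    obtain ⟨v, hv⟩ := (u2z.mul (u1i.pow q)).exists_left_inv
    exact ⟨β2i * β1z ^ q * v, by rw [mul_assoc, hv, mul_one]⟩
  let ζ : ι → R := fun i => if i = ii then Zi else if i = iz then Zz else 1
  have hζi : ζ ii = Zi := if_pos rfl
  have hζz : ζ iz = Zz := by
    show (if iz = ii then Zi else if iz = iz then Zz else 1) = Zz
    rw [if_neg hne2.symm, if_pos rfl]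
  have hζm : ζ im = 1 := by
    show (if im = ii then Zi else if im = iz then Zz else 1) = 1
    rw [if_neg hne1.symm, if_neg hne3]
  have hζ : ∀ i, ϖ ∣ ζ i ^ n - 1 := by
    intro i
    rcases hι i with rfl | rfl | rfl
    · rw [hζi]
      exact AbsMain_zeta hZi c1z c1i c2i c2z u1i u2z
    · rw [hζm, one_pow, sub_self]
      exact dvd_zero _
    · rw [hζz]
      exact AbsMain_zeta hZz c2i c2z c1z c1i u2z u1i
  have hζu : ∀ i, IsUnit (ζ i) := fun i => zeta_isUnit hϖ hn0 (hζ i)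
  have hw' : ∀ i, w ^ (q ^ 2 - 1) - 1 ∈ (𝒪 i).nonunits := by
    intro i
    have := cong_pow (𝒪 i).one_mem (hw i) (q ^ 2 - 1)
    rwa [one_pow] at this
  have : Nonempty ι := ⟨ii⟩
  exact multi_crux hϖ hV hh hh' h0 hC0 hC1 hfin hn hw' ζ hζ
    (fun 𝔪 h𝔪 hm => AbsMain_localTriv hC0 ii im iz hι hq hV1 hV2 hP0 hn0 hw hLF0 hκ1 hκ2 hb1 hb2
      hb1i hb1z hb2i hb2z ζ hζu (by rw [hζi]; exact hZi) hζm (by rw [hζz]; exact hZz) u1i u2z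
      𝔪 h𝔪 hm)
    (fun 𝔪 h𝔪 hm => AbsMain_localTriv hC1 ii im iz hι hq hV1 hV2 hP1 hn0 hw hLF1 hκ1 hκ2 hb1 hb2
      hb1i hb1z hb2i hb2z ζ hζu (by rw [hζi]; exact hZi) hζm (by rw [hζz]; exact hZz) u1i u2z
      𝔪 h𝔪 hm)

end Fermat.Agent.GT.Glue
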