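import Fermat.Agent.GT.Glue.ConstRes
import Fermat.Agent.GT.Val.Inst.NormVal

/-! GT-GLUE, file `Build`: `GeoData` for the concrete family `Val.vfam` from the exports of VAL and
LOC. -/

set_option autoImplicit false
set_option synthInstance.maxHeartbeats 400000

namespace Fermat.Agent.GT.Glue

open Fermat.Agent.GR Fermat.Agent.GR.E Fermat.Agent.GR.D.Vert Fermat.Agent.GT Fermat.Agent.GT.Val
  Fermat.Agent.GT.EMB ModularCurve

variable {L L' : Type} [Field L] [Field L'] [Algebra L L']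
  {R : ValuationSubring L} [IsDiscreteValuationRing R]
  {R' : ValuationSubring L'} [IsDiscreteValuationRing R']
  {q M0 : ℕ} [NeZero q] [NeZero M0] [NeZero (q * M0)] [NeZero (q ^ 2 * M0)] {ζ : L'ˣ} {ϖ : R}

theorem t0F_inv (t : FF L M0) : (t0F q t)⁻¹ = t0F q t⁻¹ :=
  (map_inv₀ (IntermediateField.inclusion (FF_mono L (dvd_sq0 q M0))) t).symm

set_option maxHeartbeats 1000000 in
/-- `GeoData` from VAL (`Ctx`, `BaseHyp`, `TPar` for `t` and `t⁻¹`, `NormHyp`) and LOC (`PointsOK`,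
`RegPts` on both charts). -/
theorem geoData_build [CharZero L] (C : Ctx R R' q M0 ζ ϖ) (B : BaseHyp R q M0 ϖ) {t : FF L M0}
    (ht : TPar R q M0 ϖ t) (ht' : TPar R q M0 ϖ t⁻¹)
    {N1 N2 : FF L (q ^ 2 * M0) →* FF L (q * M0)} (H : NormHyp q M0 ζ N1 N2)
    (P0 : PointsOK (R := R) (F := FF L (q ^ 2 * M0)) (F' := FF L (q * M0)) ϖ (vfam R R' q M0 ζ)
      0 1 2 (gaussO R (q * M0)) (Ozero' R q M0) (phi1 R q M0) (phi2 R q M0) N1 N2
      (chart R ({t0F q t} : Set (FF L (q ^ 2 * M0)))))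
    (P1 : PointsOK (R := R) (F := FF L (q ^ 2 * M0)) (F' := FF L (q * M0)) ϖ (vfam R R' q M0 ζ)
      0 1 2 (gaussO R (q * M0)) (Ozero' R q M0) (phi1 R q M0) (phi2 R q M0) N1 N2
      (chart R ({t0F q t⁻¹} : Set (FF L (q ^ 2 * M0)))))
    (G0 : RegPts (R := R) (F := FF L (q ^ 2 * M0)) ϖ (vfam R R' q M0 ζ)
      (chart R ({t0F q t} : Set (FF L (q ^ 2 * M0)))))
    (G1 : RegPts (R := R) (F := FF L (q ^ 2 * M0)) ϖ (vfam R R' q M0 ζ)
      (chart R ({t0F q t⁻¹} : Set (FF L (q ^ 2 * M0))))) :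
    GeoData (R := R) (F := FF L (q ^ 2 * M0)) (F' := FF L (q * M0)) ϖ (vfam R R' q M0 ζ) 0 1 2 q
      (gaussO R (q * M0)) (Ozero' R q M0) (phi1 R q M0) (phi2 R q M0) N1 N2 (t0F q t) where
  idx := by intro i; fin_cases i <;> simp
  ne_im := by decide
  ne_iz := by decide
  ne_mz := by decide
  vert := vertFam C B
  h_mem := t0F_mem C ht.param
  h_inv_mem := t0F_inv_mem C ht.param
  h_transc := t0F_transcendental ht.param
  chart0 := multiChart C B ht
  chart1 := by rw [t0F_inv]; exact multiChart C B ht'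
  fin := fin_t0F ht.param
  gauss_i' := gaussRing R _ C.irr
  gauss_z' := gaussRing_Ozero' C.irr
  mem_i' := algebraMap_mem_gaussO R _
  mem_z' := algebraMap_mem_Ozero' R q M0
  const_i' := Glue.constRes_gaussO R _
  const_z' := Glue.constRes_Ozero' R q M0
  nv1 := normVal1 C H
  nv2 := normVal2 C H
  pts0 := P0
  pts1 := by rw [t0F_inv]; exact P1
  reg0 := G0
  reg1 := by rw [t0F_inv]; exact G1

end Fermat.Agent.GT.Glue
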