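import Fermat.Agent.GT.Glue.Build
import Fermat.Agent.GT.Loc.MidThree
import Fermat.Agent.GT.Loc.Conc.Defs

/-! GT-GLUE, file `BuildLoc`: `GeoData` for the pairs `(phi1C, nm1C)`, `(phi2C, nm2C)` of
`Loc/Conc/Defs.lean`, from the exports of VAL and of LOC. -/

set_option autoImplicit false
set_option synthInstance.maxHeartbeats 400000
set_option linter.unusedSectionVars false

namespace Fermat.Agent.GT.Glue

open Fermat.Agent.GR Fermat.Agent.GR.E Fermat.Agent.GR.D.Vert Fermat.Agent.GT Fermat.Agent.GT.Val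
  Fermat.Agent.GT.EMB Fermat.Agent.GT.Loc Fermat.Agent.GS ModularCurve

variable {L L' : Type} [Field L] [Field L'] [Algebra L L']
  {R : ValuationSubring L} [IsDiscreteValuationRing R]
  {R' : ValuationSubring L'} [IsDiscreteValuationRing R']
  {q M0 : ℕ} [NeZero q] [NeZero M0] [NeZero (q * M0)] [NeZero (q ^ 2 * M0)] {ζ : L'ˣ} {ϖ : R}

theorem phi1C_eq : phi1C R q M0 = phi1 R q M0 := by
  refine AlgHom.ext fun x => ?_
  rw [phi1C_apply, phi1_apply]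

theorem phi2C_eq (C : Ctx R R' q M0 ζ ϖ) : phi2C R q M0 = phi2 R q M0 := by
  obtain ⟨ι⟩ := C.exists_embC'
  refine AlgHom.ext fun x => ?_
  rw [phi2C_apply, phi2_apply]
  apply Subtype.ext
  rw [wQ_sq_up C, wQ_wQ ι q M0 C.coprime, coe_V2]

/-- the field `swap` of `NormHyp` holds by definition for `(nm1C, nm2C)`. -/
theorem swapC (C : Ctx R R' q M0 ζ ϖ) (x : FF L (q ^ 2 * M0)) :
    wQ L q M0 (nm1C L q M0 x) = nm2C R q M0 (wQ L (q ^ 2) M0 x) := by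
  obtain ⟨ι⟩ := C.exists_embC'
  rw [nm2C_apply, wQ_wQ ι (q ^ 2) M0 C.coprime_sq]

set_option maxHeartbeats 1000000 in
/-- `GeoData` for the concrete pairs of LOC. -/
theorem geoData_conc [CharZero L] (C : Ctx R R' q M0 ζ ϖ) (B : BaseHyp R q M0 ϖ) {t : FF L M0}
    (ht : TPar R q M0 ϖ t) (ht' : TPar R q M0 ϖ t⁻¹)
    (H : NormHyp q M0 ζ (nm1C L q M0) (nm2C R q M0))
    (P0 : PointsOK (R := R) (F := FF L (q ^ 2 * M0)) (F' := FF L (q * M0)) ϖ (vfam R R' q M0 ζ)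
      0 1 2 (gaussO R (q * M0)) (Ozero' R q M0) (phi1C R q M0) (phi2C R q M0) (nm1C L q M0)
      (nm2C R q M0) (chart R ({t0F q t} : Set (FF L (q ^ 2 * M0)))))
    (P1 : PointsOK (R := R) (F := FF L (q ^ 2 * M0)) (F' := FF L (q * M0)) ϖ (vfam R R' q M0 ζ)
      0 1 2 (gaussO R (q * M0)) (Ozero' R q M0) (phi1C R q M0) (phi2C R q M0) (nm1C L q M0)
      (nm2C R q M0) (chart R ({t0F q t⁻¹} : Set (FF L (q ^ 2 * M0)))))
    (G0 : RegPts (R := R) (F := FF L (q ^ 2 * M0)) ϖ (vfam R R' q M0 ζ)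
      (chart R ({t0F q t} : Set (FF L (q ^ 2 * M0)))))
    (G1 : RegPts (R := R) (F := FF L (q ^ 2 * M0)) ϖ (vfam R R' q M0 ζ)
      (chart R ({t0F q t⁻¹} : Set (FF L (q ^ 2 * M0))))) :
    GeoData (R := R) (F := FF L (q ^ 2 * M0)) (F' := FF L (q * M0)) ϖ (vfam R R' q M0 ζ) 0 1 2 q
      (gaussO R (q * M0)) (Ozero' R q M0) (phi1C R q M0) (phi2C R q M0) (nm1C L q M0)
      (nm2C R q M0) (t0F q t) := by
  rw [phi1C_eq, phi2C_eq C] at P0 P1 ⊢
  exact geoData_build C B ht ht' H P0 P1 G0 G1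

set_option maxHeartbeats 1000000 in
/-- `Loc.Three.export` in terms of the plain definitions of `Loc/Conc/Defs.lean`. -/
theorem export_conc (hϖ : Irreducible ϖ) {t : FF L M0} (ht0 : t ≠ 0)
    (T : letI := algFF L (dvd_q0 q M0); letI := algFF L (dvd_sq q M0)
      letI := algFF L (dvd_sq0 q M0)
      Three ϖ q (gaussO R M0) (gaussO R (q * M0)) (Ozero' R q M0) (vfam R R' q M0 ζ)
        (w1C R q M0) (w2C R q M0) t)
    (M : letI := algFF L (dvd_q0 q M0); letI := algFF L (dvd_sq q M0)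
      letI := algFF L (dvd_sq0 q M0)
      MidIn ϖ q (gaussO R (q * M0)) (vfam R R' q M0 ζ) (w1C R q M0) (w2C R q M0) t)
    (hle_oo : ∀ x ∈ chart R ({up (dvd_q0 q M0) t} : Set (FF L (q * M0))), x ∈ gaussO R (q * M0))
    (hle_z : ∀ x ∈ chart R ({up (dvd_q0 q M0) t} : Set (FF L (q * M0))), x ∈ Ozero' R q M0)
    (hnode : ∀ 𝔫 : Ideal (chart R ({up (dvd_q0 q M0) t} : Set (FF L (q * M0)))), 𝔫.IsMaximal →
      vert ϖ (gaussO R (q * M0)) (chart R ({up (dvd_q0 q M0) t} : Set (FF L (q * M0)))) ≤ 𝔫 →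
      vert ϖ (Ozero' R q M0) (chart R ({up (dvd_q0 q M0) t} : Set (FF L (q * M0)))) ≤ 𝔫 →
      RegNode ϖ (gaussO R (q * M0)) (Ozero' R q M0)
        (chart R ({up (dvd_q0 q M0) t} : Set (FF L (q * M0)))) 𝔫) :
    PointsOK (R := R) (F := FF L (q ^ 2 * M0)) (F' := FF L (q * M0)) ϖ (vfam R R' q M0 ζ)
      0 1 2 (gaussO R (q * M0)) (Ozero' R q M0) (phi1C R q M0) (phi2C R q M0) (nm1C L q M0)
      (nm2C R q M0) (chart R ({t0F q t} : Set (FF L (q ^ 2 * M0)))) ∧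
    RegPts (R := R) (F := FF L (q ^ 2 * M0)) ϖ (vfam R R' q M0 ζ)
      (chart R ({t0F q t} : Set (FF L (q ^ 2 * M0)))) := by
  letI := algFF L (dvd_q0 q M0)
  letI := algFF L (dvd_sq q M0)
  letI := algFF L (dvd_sq0 q M0)
  haveI := towerC R (dvd_q0 q M0)
  haveI := towerC R (dvd_sq q M0)
  haveI := towerC R (dvd_sq0 q M0)
  haveI : IsScalarTower (FF L M0) (FF L (q * M0)) (FF L (q ^ 2 * M0)) :=
    towerC₃ (dvd_q0 q M0) (dvd_sq q M0)
  exact Three.export hϖ T ht0 M hle_oo hle_z hnode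

end Fermat.Agent.GT.Glue
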