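import Fermat.Agent.GT.Glue.GeoDefs
import Fermat.Agent.GT.Val.Inst.Defs
import Fermat.Agent.GR.E.BR7

/-! GT-GLUE, file `ConstRes`: the fields `const_i'`, `const_z'`, `mem_i'`, `mem_z'` of `GeoData` for
the two Gauss rings of level `q M0`. -/

set_option autoImplicit false
set_option synthInstance.maxHeartbeats 400000

namespace Fermat.Agent.GT.Glue

open Fermat.Agent.GR Fermat.Agent.GR.E Fermat.Agent.GR.D.Vert Fermat.Agent.GT Fermat.Agent.GT.Val
  Fermat.Agent.GT.EMB ModularCurve

/-- A Laurent series whose `n`-th power is a constant is a constant. -/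
theorem series_const_of_pow {k : Type*} [Field k] (f : LaurentSeries k) {n : ℕ} (hn : 0 < n)
    (c : k) (h : f ^ n = HahnSeries.C c) : ∃ d : k, f = HahnSeries.C d := by
  let kb := AlgebraicClosure k
  let g : LaurentSeries kb := coeffMap (algebraMap k kb) f
  have hg : g ^ n = algebraMap kb (LaurentSeries kb) (algebraMap k kb c) := by
    rw [← map_pow, h, coeffMap_C, algebraMap_laurentSeries_eq_single]
    rfl
  have hint : IsIntegral kb g := by
    refine ⟨Polynomial.X ^ n - Polynomial.C (algebraMap k kb c),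
      Polynomial.monic_X_pow_sub_C _ hn.ne', ?_⟩
    rw [Polynomial.eval₂_sub, Polynomial.eval₂_pow, Polynomial.eval₂_X, Polynomial.eval₂_C, hg,
      sub_self]
  have hdeg : (minpoly kb g).degree = 1 :=
    IsAlgClosed.degree_eq_one_of_irreducible kb (minpoly.irreducible hint)
  obtain ⟨c₀, hc₀⟩ := minpoly.mem_range_of_degree_eq_one kb _ hdeg
  refine ⟨f.coeff 0, ?_⟩
  ext m
  by_cases hm : m = 0
  · subst hm
    simp
  · have h1 : g.coeff m = 0 := by
      rw [← hc₀, algebraMap_laurentSeries_eq_single, HahnSeries.coeff_single_of_ne hm]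
    have h2 : algebraMap k kb (f.coeff m) = 0 := by
      rw [← h1]
      exact (coeffMap_coeff _ _ _).symm
    rw [(map_eq_zero _).1 h2]
    exact (HahnSeries.coeff_single_of_ne hm).symm

section
variable {L : Type} [Field L] (R : ValuationSubring L) [IsDiscreteValuationRing R]

theorem algebraMap_mem_gaussO (N : ℕ) (r : R) : algebraMap R (FF L N) r ∈ gaussO R N := by
  rw [mem_gaussO, coe_algebraMap_C, ← coeffMap_C]
  exact isGInt_emb _

theorem gredFun_algebraMap (N : ℕ) (r : R) :
    gredFun R ((algebraMap R (FF L N) r : FF L N) : LaurentSeries L) =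
      HahnSeries.C (IsLocalRing.residue R r) := by
  rw [coe_algebraMap_C, ← coeffMap_C, gredFun_emb, coeffMap_C]

theorem constRes_gaussO (N : ℕ) : ConstRes R (gaussO R N) := by
  intro y n κ hn _ h
  have hn0 : 0 < n := by
    rcases Nat.eq_zero_or_pos n with rfl | h0
    · simp at hn
    · exact h0
  have hκ := algebraMap_mem_gaussO R N κ
  have hyn : y ^ n ∈ gaussO R N := by
    have : y ^ n = (y ^ n - algebraMap R (FF L N) κ) + algebraMap R (FF L N) κ := by ring
    rw [this]
    refine (gaussO R N).add_mem _ _ ?_ hκ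
    rw [ValuationSubring.mem_nonunits_iff] at h
    exact ((gaussO R N).valuation_le_one_iff _).1 h.le
  have hy : y ∈ gaussO R N := by
    rw [← ValuationSubring.valuation_le_one_iff] at hyn ⊢
    rw [map_pow] at hyn
    exact (pow_le_one_iff_of_nonneg zero_le hn0.ne').1 hyn
  rw [sub_mem_nonunits_gaussO hyn hκ, IntermediateField.coe_pow, gredFun_pow (mem_gaussO.1 hy),
    gredFun_algebraMap] at h
  obtain ⟨d, hd⟩ := series_const_of_pow _ hn0 _ h
  obtain ⟨β, rfl⟩ := IsLocalRing.residue_surjective d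
  refine ⟨β, ?_⟩
  rw [sub_mem_nonunits_gaussO hy (algebraMap_mem_gaussO R N β), gredFun_algebraMap]
  exact hd

end

/-- `ConstRes` is transported by automorphisms over `R`. -/
theorem ConstRes.comap {R : Type*} [CommRing R] {F' : Type*} [Field F'] [Algebra R F']
    {O' : ValuationSubring F'} (h : ConstRes R O') (w : F' →+* F')
    (hw : ∀ r : R, w (algebraMap R F' r) = algebraMap R F' r) : ConstRes R (O'.comap w) := by
  intro y n κ hn hκ hy
  rw [BR7_mem_nonunits_comap, map_sub, map_pow, hw] at hy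
  obtain ⟨β, hβ⟩ := h (w y) n κ hn hκ hy
  refine ⟨β, ?_⟩
  rw [BR7_mem_nonunits_comap, map_sub, hw]
  exact hβ

section
variable {L : Type} [Field L] (R : ValuationSubring L) [IsDiscreteValuationRing R]

omit [IsDiscreteValuationRing R] in
theorem wQ_algebraMap_R (Q N1 : ℕ) [NeZero (Q * N1)] (r : R) :
    wQ L Q N1 (algebraMap R (FF L (Q * N1)) r) = algebraMap R (FF L (Q * N1)) r :=
  (wQ L Q N1).commutes (r : L)

theorem constRes_Ozero' (q M0 : ℕ) [NeZero (q * M0)] : ConstRes R (Ozero' R q M0) :=
  (constRes_gaussO R (q * M0)).comap _ (wQ_algebraMap_R R q M0)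

theorem algebraMap_mem_Ozero' (q M0 : ℕ) [NeZero (q * M0)] (r : R) :
    algebraMap R (FF L (q * M0)) r ∈ Ozero' R q M0 := by
  show wQ L q M0 (algebraMap R (FF L (q * M0)) r) ∈ gaussO R (q * M0)
  rw [wQ_algebraMap_R]
  exact algebraMap_mem_gaussO R _ r

end

end Fermat.Agent.GT.Glue
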