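import Fermat.Agent.GT.Iface
import Fermat.Agent.S05.Inertia

/-! GT-GLUE, file `Enlarge`: enlarging the base field `L` inside the inertia field. -/

set_option autoImplicit false

namespace Fermat.Agent.GT.Glue

open Fermat.Agent.GR Fermat.Agent.GR.E Fermat.Agent.GT Polynomial IntermediateField

/-- abstract Hensel uniqueness: two roots of `g` which are congruent modulo the maximal ideal are
equal if `g'` is a unit at one of them. -/
theorem root_unique_of_cong {B : Type*} [CommRing B] [IsDomain B] [IsLocalRing B] (g : B[X])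
    {x y : B} (hx : g.eval x = 0) (hy : g.eval (x + y) = 0) (hu : IsUnit (g.derivative.eval x))
    (hym : y ∈ IsLocalRing.maximalIdeal B) : y = 0 := by
  obtain ⟨k, hk⟩ := g.binomExpansion x y
  rw [hy, hx, zero_add] at hk
  have h1 : y * (g.derivative.eval x + k * y) = 0 := by
    rw [hk]; ring
  rcases mul_eq_zero.mp h1 with h | h
  · exact h
  · exfalso
    have h2 : g.derivative.eval x = -(k * y) := by
      rw [eq_neg_iff_add_eq_zero]; exact h
    have h3 : g.derivative.eval x ∈ IsLocalRing.maximalIdeal B := by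
      rw [h2]
      exact neg_mem (Ideal.mul_mem_left _ _ hym)
    exact (IsLocalRing.mem_maximalIdeal _).1 h3 hu

theorem inertFixed_iff_le (A : ValuationSubring Qb) (L : IntermediateField ℚ Qb) :
    InertFixed A L ↔ L ≤ IntermediateField.fixedField (A.inertiaSubgroupIn ℚ) := by
  constructor
  · intro h x hx
    rw [IntermediateField.mem_fixedField_iff]
    intro τ hτ
    exact h τ hτ ⟨x, hx⟩
  · intro h τ hτ x
    exact (IntermediateField.mem_fixedField_iff _ _).1 (h x.2) τ hτ

/-- A root `α ∈ A` of a polynomial `f` over `L` with `A`-integral coefficients such that `f'(α)` is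
a unit of `A` is fixed by the inertia group. -/
theorem inert_fixed_root {A : ValuationSubring Qb} {L : IntermediateField ℚ Qb}
    (hL : InertFixed A L) (f : L[X]) (hfA : ∀ i, ((f.coeff i : L) : Qb) ∈ A) {α : Qb}
    (hαA : α ∈ A) (hα : aeval α f = 0) (hα' : aeval α (derivative f) ∉ A.nonunits)
    {τ : Qb ≃ₐ[ℚ] Qb} (hτ : τ ∈ A.inertiaSubgroupIn ℚ) : τ α = α := by
  set g : Qb[X] := f.map (algebraMap L Qb) with hg
  have hgc : ∀ i, g.coeff i ∈ A := by
    intro i
    rw [hg, coeff_map]
    exact hfA i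
  have hgsub : (↑g.coeffs : Set Qb) ⊆ A.toSubring := by
    intro c hc
    obtain ⟨i, _, rfl⟩ := Polynomial.mem_coeffs_iff.1 hc
    exact hgc i
  set gA : (A.toSubring)[X] := g.toSubring A.toSubring hgsub with hgA
  have hmap : gA.map A.toSubring.subtype = g := Polynomial.map_toSubring g A.toSubring hgsub
  have heval : ∀ z : A.toSubring, ((gA.eval z : A.toSubring) : Qb) = g.eval (z : Qb) := by
    intro z
    rw [← hmap, eval_map]
    exact (Polynomial.eval₂_at_apply A.subtype z).symm
  have hevald : ∀ z : A.toSubring,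
      ((gA.derivative.eval z : A.toSubring) : Qb) = g.derivative.eval (z : Qb) := by
    intro z
    rw [← hmap, derivative_map, eval_map]
    exact (Polynomial.eval₂_at_apply A.subtype z).symm
  have hgα : g.eval α = 0 := by
    rw [hg, eval_map_algebraMap]; exact hα
  have hgdα : g.derivative.eval α = aeval α (derivative f) := by
    rw [hg, derivative_map, eval_map_algebraMap]
  have hτg : g.map (τ : Qb →+* Qb) = g := by
    ext i
    rw [coeff_map, hg, coeff_map]
    exact hL τ hτ (f.coeff i)
  have hgτα : g.eval (τ α) = 0 := by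
    have h1 : (g.map (τ : Qb →+* Qb)).eval ((τ : Qb →+* Qb) α) = (τ : Qb →+* Qb) (g.eval α) :=
      Polynomial.eval_map_apply _ _
    rw [hτg, hgα, map_zero] at h1
    exact h1
  have hy : τ α - α ∈ A.nonunits := Fermat.Agent.S05.inertia_sub_mem A hτ hαA
  have hyA : τ α - α ∈ A := by
    rw [ValuationSubring.mem_nonunits_iff] at hy
    exact (A.valuation_le_one_iff _).1 hy.le
  have key : (⟨τ α - α, hyA⟩ : A) = 0 := by
    refine root_unique_of_cong (B := A) gA (x := ⟨α, hαA⟩) ?_ ?_ ?_ ?_
    · apply Subtype.ext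
      exact (heval ⟨α, hαA⟩).trans hgα
    · apply Subtype.ext
      refine (heval _).trans ?_
      show g.eval (α + (τ α - α)) = 0
      rw [add_sub_cancel]; exact hgτα
    · rw [← IsLocalRing.notMem_maximalIdeal]
      intro hmem
      apply hα'
      have := ValuationSubring.coe_mem_nonunits_iff.2 hmem
      rw [← hgdα, ← hevald ⟨α, hαA⟩]
      exact this
    · rw [IsLocalRing.mem_maximalIdeal]
      exact ValuationSubring.coe_mem_nonunits_iff.1 hy
  have := congrArg (Subtype.val) key
  exact sub_eq_zero.1 this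

/-- Adjoining finitely many elements fixed by the inertia group. -/
theorem exists_enlarge {A : ValuationSubring Qb} {L : IntermediateField ℚ Qb}
    [FiniteDimensional ℚ L] (hL : InertFixed A L) (S : Finset Qb)
    (hS : ∀ α ∈ S, ∀ τ : Qb ≃ₐ[ℚ] Qb, τ ∈ A.inertiaSubgroupIn ℚ → τ α = α) :
    ∃ L' : IntermediateField ℚ Qb, L ≤ L' ∧ FiniteDimensional ℚ L' ∧ InertFixed A L' ∧
      ∀ α ∈ S, α ∈ L' := by
  refine ⟨L ⊔ IntermediateField.adjoin ℚ (S : Set Qb), le_sup_left, ?_, ?_, ?_⟩
  · have : FiniteDimensional ℚ (IntermediateField.adjoin ℚ (S : Set Qb)) :=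
      IntermediateField.finiteDimensional_adjoin
        (fun x _ => ((AlgebraicClosure.isAlgebraic ℚ).isAlgebraic x).isIntegral)
    exact IntermediateField.finiteDimensional_sup _ _
  · rw [inertFixed_iff_le] at hL ⊢
    refine sup_le hL ?_
    rw [IntermediateField.adjoin_le_iff]
    intro α hα
    exact (IntermediateField.mem_fixedField_iff _ _).2 (fun τ hτ => hS α hα τ hτ)
  · intro α hα
    exact (le_sup_right : _ ≤ L ⊔ IntermediateField.adjoin ℚ (S : Set Qb))
      (IntermediateField.subset_adjoin ℚ _ hα)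

/-- An `n`-th root (`q ∤ n`) of a unit `b ∈ L` of `A` is fixed by the inertia group. -/
theorem inert_fixed_nthRoot {A : ValuationSubring Qb} {q : ℕ} (hq : q.Prime)
    (hA : A.LiesOverPrime q) {L : IntermediateField ℚ Qb} (hL : InertFixed A L) {n : ℕ}
    (hn : ¬ q ∣ n) (b : L) (hb : (b : Qb) ∈ A) (hb' : (b : Qb) ∉ A.nonunits) {α : Qb}
    (hα : α ^ n = b) {τ : Qb ≃ₐ[ℚ] Qb} (hτ : τ ∈ A.inertiaSubgroupIn ℚ) : τ α = α := by
  have hn0 : n ≠ 0 := by
    rintro rfl
    exact hn (dvd_zero q)
  have hvb : A.valuation (b : Qb) = 1 := by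
    rw [ValuationSubring.mem_nonunits_iff, not_lt] at hb'
    exact le_antisymm ((A.valuation_le_one_iff _).2 hb) hb'
  have hvα : A.valuation α = 1 := by
    have h1 : A.valuation α ^ n = 1 := by rw [← map_pow, hα, hvb]
    exact (pow_eq_one_iff.1 h1).resolve_right hn0
  have hvn : A.valuation (n : Qb) = 1 := by
    have h1 : ((n : ℤ) : Qb) ∉ A.nonunits := by
      rw [Fermat.Agent.S05.intCast_mem_nonunits_iff A hq hA]
      exact_mod_cast hn
    rw [ValuationSubring.mem_nonunits_iff, not_lt] at h1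
    have h2 : A.valuation ((n : ℤ) : Qb) ≤ 1 := (A.valuation_le_one_iff _).2 (intCast_mem A n)
    have := le_antisymm h2 h1
    simpa using this
  refine inert_fixed_root hL (X ^ n - C b) ?_ ((A.valuation_le_one_iff _).1 hvα.le) ?_ ?_ hτ
  · intro i
    rw [coeff_sub, coeff_X_pow, coeff_C]
    have h1 : (((if i = n then 1 else 0 : L)) : Qb) ∈ A := by
      split_ifs <;> simp [A.one_mem, A.zero_mem]
    have h2 : (((if i = 0 then b else 0 : L)) : Qb) ∈ A := by
      split_ifs <;> simp [hb, A.zero_mem]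
    exact A.sub_mem h1 h2
  · simp [hα]
  · rw [ValuationSubring.mem_nonunits_iff, not_lt]
    have : aeval α (derivative (X ^ n - C b : L[X])) = (n : Qb) * α ^ (n - 1) := by
      simp [derivative_X_pow]
    rw [this, map_mul, map_pow, hvα, hvn]
    simp

/-- Adjoining all `n`-th roots of finitely many units (put `1 ∈ S` to get `μ_n`). -/
theorem exists_enlarge_nthRoots {A : ValuationSubring Qb} {q : ℕ} (hq : q.Prime)
    (hA : A.LiesOverPrime q) {L : IntermediateField ℚ Qb} [FiniteDimensional ℚ L]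
    (hL : InertFixed A L) {n : ℕ} (hn : ¬ q ∣ n) (S : Finset L)
    (hS : ∀ b ∈ S, (b : Qb) ∈ A ∧ (b : Qb) ∉ A.nonunits) :
    ∃ L' : IntermediateField ℚ Qb, L ≤ L' ∧ FiniteDimensional ℚ L' ∧ InertFixed A L' ∧
      ∀ b ∈ S, ∀ α : Qb, α ^ n = b → α ∈ L' := by
  classical
  have hn0 : 0 < n := by
    rcases Nat.eq_zero_or_pos n with rfl | h
    · exact absurd (dvd_zero q) hn
    · exact h
  obtain ⟨L', h1, h2, h3, h4⟩ := exists_enlarge hL
    (S.biUnion fun b => (Polynomial.nthRoots n (b : Qb)).toFinset) (by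
      intro α hα τ hτ
      rw [Finset.mem_biUnion] at hα
      obtain ⟨b, hbS, hαb⟩ := hα
      rw [Multiset.mem_toFinset, Polynomial.mem_nthRoots hn0] at hαb
      exact inert_fixed_nthRoot hq hA hL hn b (hS b hbS).1 (hS b hbS).2 hαb hτ)
  refine ⟨L', h1, h2, h3, fun b hb α hα => h4 α ?_⟩
  rw [Finset.mem_biUnion]
  exact ⟨b, hb, by rw [Multiset.mem_toFinset, Polynomial.mem_nthRoots hn0]; exact hα⟩

end Fermat.Agent.GT.Glue
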