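import Fermat.Agent.GT.Glue.Defs
import Fermat.Agent.GT.Abs.Basic

/-! GT-GLUE, file `Relation`: ONE relation between the gluing constants at a crossing point,
coming from the triviality of ONE norm. -/

set_option autoImplicit false

namespace Fermat.Agent.GT.Glue

open Fermat.Agent.GR.E Fermat.Agent.GS Fermat.Agent.GT

variable {R : Type*} [CommRing R] {F F' : Type*} [Field F] [Field F'] [Algebra R F] [Algebra R F']

theorem nonunits_add {V : ValuationSubring F} {x y : F} (hx : x ∈ V.nonunits)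
    (hy : y ∈ V.nonunits) : x + y ∈ V.nonunits := by
  rw [ValuationSubring.mem_nonunits_iff] at *
  exact lt_of_le_of_lt (V.valuation.map_add x y) (max_lt hx hy)

theorem nonunits_neg {V : ValuationSubring F} {x : F} (hx : x ∈ V.nonunits) :
    -x ∈ V.nonunits := by
  rw [ValuationSubring.mem_nonunits_iff] at *
  rwa [Valuation.map_neg]

theorem nonunits_sub {V : ValuationSubring F} {x y : F} (hx : x ∈ V.nonunits)
    (hy : y ∈ V.nonunits) : x - y ∈ V.nonunits := by
  rw [sub_eq_add_neg]
  exact nonunits_add hx (nonunits_neg hy)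

theorem nonunits_mul_left {V : ValuationSubring F} {x y : F} (hx : x ∈ V)
    (hy : y ∈ V.nonunits) : x * y ∈ V.nonunits :=
  basic_mul_mem_nonunits hx hy

theorem nonunits_mem {V : ValuationSubring F} {x : F} (hx : x ∈ V.nonunits) : x ∈ V := by
  rw [ValuationSubring.mem_nonunits_iff] at hx
  exact (V.valuation_le_one_iff x).1 hx.le

/-- congruences modulo `𝔪(V)` multiply -/
theorem cong_mul {V : ValuationSubring F} {x x' y y' : F} (hx' : x' ∈ V) (hy : y ∈ V)
    (h1 : x - x' ∈ V.nonunits) (h2 : y - y' ∈ V.nonunits) : x * y - x' * y' ∈ V.nonunits := by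
  have : x * y - x' * y' = y * (x - x') + x' * (y - y') := by ring
  rw [this]
  exact nonunits_add (nonunits_mul_left hy h1) (nonunits_mul_left hx' h2)

theorem cong_mem {V : ValuationSubring F} {x x' : F} (hx' : x' ∈ V)
    (h1 : x - x' ∈ V.nonunits) : x ∈ V := by
  have : x = (x - x') + x' := by ring
  rw [this]
  exact V.add_mem _ _ (nonunits_mem h1) hx'

theorem cong_pow {V : ValuationSubring F} {x x' : F} (hx' : x' ∈ V)
    (h1 : x - x' ∈ V.nonunits) (m : ℕ) : x ^ m - x' ^ m ∈ V.nonunits := by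
  induction m with
  | zero => simp
  | succ m ih =>
    rw [pow_succ, pow_succ]
    exact cong_mul (V.pow_mem hx' m) (cong_mem hx' h1) ih h1

/-- (G2) THE GLUING RELATION.  `ε = a ^ n * w` is a unit at the crossing point,
`Nm w * b ^ n = κ` is a constant, `b ≡ βab`, `b ≡ βins` on the two components of level
`q N₁`; `x_i ∈ Λ` represents the residue of `a` on the `i`-th component.  Then
`x_a * x_b ^ (q - 1) * βins ≡ x_ins ^ q * βab` at the point. -/
theorem glue_relation {q : ℕ} {φ : F' →ₐ[R] F} {Nm : F →* F'}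
    {Oins Oa Ob : ValuationSubring F} {Oins' Oab' : ValuationSubring F'}
    (hV : NormVal q φ Nm Oins Oa Ob Oins' Oab')
    {Λ : Subalgebra R F} {M : F → Prop} {Λ' : Subalgebra R F'}
    (hL : NormLoc φ Nm Oins Oa Ob Oab' Λ M Λ')
    {n : ℕ} (hn : 0 < n) {a w : F} (h1 : a ^ n * w ∈ Λ)
    {κ : R} (hκ : IsUnit κ) {b : F'} (hb : Nm w * b ^ n = algebraMap R F' κ)
    {βab βins : R} (hbab : b - algebraMap R F' βab ∈ Oab'.nonunits)
    (hbins : b - algebraMap R F' βins ∈ Oins'.nonunits)
    {xins xa xb : F} (hxins : xins ∈ Λ) (hxa : xa ∈ Λ) (hxb : xb ∈ Λ)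
    (hains : a - xins ∈ Oins.nonunits) (haa : a - xa ∈ Oa.nonunits) (hab : a - xb ∈ Ob.nonunits) :
    M (xa * xb ^ (q - 1) * algebraMap R F βins - xins ^ q * algebraMap R F βab) := by
  obtain ⟨κ', hκ'⟩ := hκ.exists_right_inv
  have hκF : algebraMap R F' κ * algebraMap R F' κ' = 1 := by
    rw [← map_mul, hκ', map_one]
  have hκ0 : algebraMap R F' κ ≠ 0 := left_ne_zero_of_mul_eq_one hκF
  have hb0 : b ≠ 0 := by
    rintro rfl
    rw [zero_pow hn.ne', mul_zero] at hb
    exact hκ0 hb.symm
  -- the element `a' = Nm a / b`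
  set a' : F' := Nm a / b with ha'
  have ha'b : a' * b = Nm a := by rw [ha']; field_simp
  have ha'n : a' ^ n = Nm (a ^ n * w) * algebraMap R F' κ' := by
    have e1 : Nm (a ^ n * w) = a' ^ n * (Nm w * b ^ n) := by
      rw [map_mul, map_pow, ← ha'b]; ring
    rw [e1, hb, mul_assoc, hκF, mul_one]
  have ha'Λ : a' ∈ Λ' := by
    apply hL.closed' a' n hn
    rw [ha'n]
    exact Λ'.mul_mem (hL.norm_mem _ h1) (Λ'.algebraMap_mem _)
  have hφa' : φ a' ∈ Λ := hL.map_mem _ ha'Λ
  have hφalg : ∀ r : R, φ (algebraMap R F' r) = algebraMap R F r := fun r => φ.commutes r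
  -- the inseparable component
  have hins : M (φ a' * algebraMap R F βins - xins ^ q) := by
    have hxO : xins ∈ Oins := hL.le_ins _ hxins
    have haO : a ∈ Oins := cong_mem hxO hains
    apply hL.max_ins
    · exact Λ.sub_mem (Λ.mul_mem hφa' (Λ.algebraMap_mem _)) (Λ.pow_mem hxins q)
    · have e1 : φ (Nm a) - a ^ q ∈ Oins.nonunits := hV.red_ins a haO
      have e2 : a ^ q - xins ^ q ∈ Oins.nonunits := cong_pow hxO hains q
      have e3 : φ b - algebraMap R F βins ∈ Oins.nonunits := by
        have := hV.map_ins _ hbins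
        rwa [map_sub, hφalg] at this
      have e4 : φ a' * (φ b - algebraMap R F βins) ∈ Oins.nonunits :=
        nonunits_mul_left (hL.le_ins _ hφa') e3
      have : φ a' * algebraMap R F βins - xins ^ q
          = (φ (Nm a) - a ^ q) + (a ^ q - xins ^ q) - φ a' * (φ b - algebraMap R F βins) := by
        rw [← ha'b, map_mul]; ring
      rw [this]
      exact nonunits_sub (nonunits_add e1 e2) e4
  -- the other component
  obtain ⟨ya, hya, hya'⟩ := hL.lift_a xa hxa
  obtain ⟨yb, hyb, hyb'⟩ := hL.lift_b xb hxb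
  have hab' : M (φ a' * algebraMap R F βab - xa * xb ^ (q - 1)) := by
    have f1 : a - φ ya ∈ Oa.nonunits := by
      have : a - φ ya = (a - xa) + (xa - φ ya) := by ring
      rw [this]; exact nonunits_add haa hya'
    have f2 : a - φ yb ∈ Ob.nonunits := by
      have : a - φ yb = (a - xb) + (xb - φ yb) := by ring
      rw [this]; exact nonunits_add hab hyb'
    have f3 : Nm a - ya * yb ^ (q - 1) ∈ Oab'.nonunits :=
      hV.red_ab a ya yb (hL.le_ab' _ hya) (hL.le_ab' _ hyb) f1 f2
    have f4 : a' * algebraMap R F' βab - ya * yb ^ (q - 1) ∈ Oab'.nonunits := by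
      have : a' * algebraMap R F' βab - ya * yb ^ (q - 1)
          = (Nm a - ya * yb ^ (q - 1)) - a' * (b - algebraMap R F' βab) := by
        rw [← ha'b]; ring
      rw [this]
      exact nonunits_sub f3 (nonunits_mul_left (hL.le_ab' _ ha'Λ) hbab)
    have f5 : M (φ a' * algebraMap R F βab - φ ya * φ yb ^ (q - 1)) := by
      apply hL.max_a
      · exact Λ.sub_mem (Λ.mul_mem hφa' (Λ.algebraMap_mem _))
          (Λ.mul_mem (hL.map_mem _ hya) (Λ.pow_mem (hL.map_mem _ hyb) _))
      · have := hV.map_a _ f4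
        rwa [map_sub, map_mul, map_mul, map_pow, hφalg] at this
    have g1 : M (φ ya - xa) := by
      apply hL.max_a _ (Λ.sub_mem (hL.map_mem _ hya) hxa)
      have : φ ya - xa = -(xa - φ ya) := by ring
      rw [this]; exact nonunits_neg hya'
    have g2 : M (φ yb - xb) := by
      apply hL.max_b _ (Λ.sub_mem (hL.map_mem _ hyb) hxb)
      have : φ yb - xb = -(xb - φ yb) := by ring
      rw [this]; exact nonunits_neg hyb'
    have g3 : ∀ m : ℕ, M (φ yb ^ m - xb ^ m) := by
      intro m
      induction m with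
      | zero =>
        have : (φ yb ^ 0 - xb ^ 0 : F) = 0 * (φ yb - xb) := by simp
        rw [this]; exact hL.M_mul _ _ Λ.zero_mem g2
      | succ m ih =>
        have : φ yb ^ (m + 1) - xb ^ (m + 1)
            = φ yb * (φ yb ^ m - xb ^ m) + xb ^ m * (φ yb - xb) := by ring
        rw [this]
        exact hL.M_add _ _ (hL.M_mul _ _ (hL.map_mem _ hyb) ih)
          (hL.M_mul _ _ (Λ.pow_mem hxb m) g2)
    have : φ a' * algebraMap R F βab - xa * xb ^ (q - 1)
        = (φ a' * algebraMap R F βab - φ ya * φ yb ^ (q - 1))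
          + (φ yb ^ (q - 1) * (φ ya - xa) + xa * (φ yb ^ (q - 1) - xb ^ (q - 1))) := by ring
    rw [this]
    exact hL.M_add _ _ f5 (hL.M_add _ _
      (hL.M_mul _ _ (Λ.pow_mem (hL.map_mem _ hyb) _) g1) (hL.M_mul _ _ hxa (g3 _)))
  have : xa * xb ^ (q - 1) * algebraMap R F βins - xins ^ q * algebraMap R F βab
      = algebraMap R F βab * (φ a' * algebraMap R F βins - xins ^ q)
        + (-algebraMap R F βins) * (φ a' * algebraMap R F βab - xa * xb ^ (q - 1)) := by ring
  rw [this]
  exact hL.M_add _ _ (hL.M_mul _ _ (Λ.algebraMap_mem _) hins)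
    (hL.M_mul _ _ (Λ.neg_mem (Λ.algebraMap_mem _)) hab')

end Fermat.Agent.GT.Glue
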