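import Fermat.Agent.GT.Glue.GeoDefs
import Fermat.Agent.GT.Glue.Relation

/-! GT-GLUE, file `Normalize`: normalisation of the constants in `Nm w = c * z ^ n`. -/

set_option autoImplicit false

namespace Fermat.Agent.GT.Glue

open Fermat.Agent.GR.E Fermat.Agent.GS Fermat.Agent.GT

variable {R : Type*} [CommRing R] [IsDomain R] [IsDiscreteValuationRing R]
variable {F F' : Type*} [Field F] [Field F'] [Algebra R F] [Algebra R F']
variable {ϖ : R}

omit [IsDomain R] [IsDiscreteValuationRing R] in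
/-- `w ≡ 1` on the three components `⇒` `Nm w ≡ 1` on the two components below. -/
theorem norm_cong_one {q : ℕ} {φ : F' →ₐ[R] F} {Nm : F →* F'}
    {Oins Oa Ob : ValuationSubring F} {Oins' Oab' : ValuationSubring F'}
    (hV : NormVal q φ Nm Oins Oa Ob Oins' Oab') {w : F} (hwins : w - 1 ∈ Oins.nonunits)
    (hwa : w - 1 ∈ Oa.nonunits) (hwb : w - 1 ∈ Ob.nonunits) :
    Nm w - 1 ∈ Oab'.nonunits ∧ Nm w - 1 ∈ Oins'.nonunits := by
  constructor
  · have h := hV.red_ab w 1 1 Oab'.one_mem Oab'.one_mem (by rwa [map_one]) (by rwa [map_one])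
    simpa using h
  · apply hV.comap_ins
    have h1 : φ (Nm w) - w ^ q ∈ Oins.nonunits :=
      hV.red_ins w (cong_mem Oins.one_mem hwins)
    have h2 : w ^ q - 1 ^ q ∈ Oins.nonunits := cong_pow Oins.one_mem hwins q
    have : φ (Nm w - 1) = (φ (Nm w) - w ^ q) + (w ^ q - 1 ^ q) := by
      rw [map_sub, map_one, one_pow]; ring
    rw [this]
    exact nonunits_add h1 h2

omit [IsDomain R] [IsDiscreteValuationRing R] in
theorem normalize_val_unif_lt_one {O' : ValuationSubring F'} (hG : GaussRing ϖ O') :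
    O'.valuation (algebraMap R F' ϖ) < 1 := by
  have h1 : O'.valuation (algebraMap R F' ϖ) ≤ 1 := (O'.valuation_le_one_iff _).2 hG.mem
  refine lt_of_le_of_ne h1 fun h => hG.inv_not_mem ?_
  rw [← O'.valuation_le_one_iff, map_inv₀, h, inv_one]

omit [IsDomain R] [IsDiscreteValuationRing R] in
theorem normalize_val_le_unif {O' : ValuationSubring F'} (hG : GaussRing ϖ O') {y : F'}
    (hy : O'.valuation y < 1) : O'.valuation y ≤ O'.valuation (algebraMap R F' ϖ) := by
  have hπ0 : O'.valuation (algebraMap R F' ϖ) ≠ 0 := (O'.valuation.ne_zero_iff).2 hG.ne_zero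
  by_cases hy0 : y = 0
  · subst hy0; simp
  rcases hG.unif y ((O'.valuation_le_one_iff _).1 hy.le) with h | h
  · rw [← O'.valuation_le_one_iff, map_div₀] at h
    exact (div_le_one₀ (zero_lt_iff.2 hπ0)).1 h
  · exfalso
    rw [← O'.valuation_le_one_iff, map_inv₀] at h
    have hy0' : O'.valuation y ≠ 0 := (O'.valuation.ne_zero_iff).2 hy0
    have : 1 ≤ O'.valuation y := (inv_le_one₀ (zero_lt_iff.2 hy0')).1 h
    exact absurd hy (not_lt.2 this)

/-- In a valuation ring whose maximal ideal is generated by `ϖ`: if `z ^ n = ϖ ^ m * unit`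
(`m : ℤ`) then `z = ϖ ^ k * unit` and `m = n * k`. -/
theorem exists_zpow_of_pow {O' : ValuationSubring F'} (hG : GaussRing ϖ O') {n : ℕ} (hn : 0 < n)
    {z e : F'} (m : ℤ) (he : e ∈ O') (he' : e⁻¹ ∈ O') (he0 : e ≠ 0)
    (hz : z ^ n = algebraMap R F' ϖ ^ m * e) :
    ∃ k : ℤ, m = n * k ∧ z / algebraMap R F' ϖ ^ k ∈ O' ∧ (z / algebraMap R F' ϖ ^ k)⁻¹ ∈ O' := by
  set π : F' := algebraMap R F' ϖ with hπ
  have hπ0 : π ≠ 0 := hG.ne_zero
  have hvπ0 : O'.valuation π ≠ 0 := (O'.valuation.ne_zero_iff).2 hπ0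
  have hvπ1 : O'.valuation π < 1 := normalize_val_unif_lt_one hG
  have hve : O'.valuation e = 1 := by
    have h1 : O'.valuation e ≤ 1 := (O'.valuation_le_one_iff _).2 he
    have h2 : O'.valuation e⁻¹ ≤ 1 := (O'.valuation_le_one_iff _).2 he'
    rw [map_inv₀] at h2
    have h3 : 1 ≤ O'.valuation e :=
      (inv_le_one₀ (zero_lt_iff.2 ((O'.valuation.ne_zero_iff).2 he0))).1 h2
    exact le_antisymm h1 h3
  have hnZ : (0 : ℤ) < n := by exact_mod_cast hn
  set k : ℤ := m / n with hk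
  set r : ℤ := m % n with hr
  have hmk : m = n * k + r := (Int.mul_ediv_add_emod m n).symm
  have hr0 : 0 ≤ r := Int.emod_nonneg _ hnZ.ne'
  have hrn : r < n := Int.emod_lt_of_pos _ hnZ
  set y : F' := z / π ^ k with hy
  have hyn : y ^ n = π ^ r * e := by
    have h1 : (π ^ k) ^ n = π ^ ((n : ℤ) * k) := by
      rw [mul_comm, zpow_mul, zpow_natCast]
    have h2 : π ^ ((n : ℤ) * k) ≠ 0 := zpow_ne_zero _ hπ0
    rw [hy, div_pow, hz, h1, hmk, zpow_add₀ hπ0]
    field_simp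
  have hvy : O'.valuation y ^ n = O'.valuation π ^ r.toNat := by
    have h := congrArg O'.valuation hyn
    rw [map_pow, map_mul, hve, mul_one, map_zpow₀] at h
    rw [h, ← zpow_natCast, Int.toNat_of_nonneg hr0]
  have hr' : r = 0 := by
    by_contra hne
    have hrpos : 0 < r.toNat := by omega
    have hrlt : r.toNat < n := by omega
    have h1 : O'.valuation y ^ n < 1 := by
      rw [hvy]; exact pow_lt_one₀ zero_le hvπ1 hrpos.ne'
    have h2 : O'.valuation y < 1 := by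
      by_contra hcon
      exact absurd h1 (not_lt.2 (one_le_pow₀ (not_lt.1 hcon)))
    have h3 : O'.valuation y ≤ O'.valuation π := normalize_val_le_unif hG h2
    have h4 : O'.valuation y ^ n ≤ O'.valuation π ^ n := pow_le_pow_left₀ zero_le h3 n
    have h5 : O'.valuation π ^ n < O'.valuation π ^ r.toNat :=
      pow_lt_pow_right_of_lt_one₀ (zero_lt_iff.2 hvπ0) hvπ1 hrlt
    rw [hvy] at h4
    exact absurd h5 (not_lt.2 h4)
  have hvy1 : O'.valuation y = 1 := by
    rw [hr'] at hvy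
    simp only [Int.toNat_zero, pow_zero] at hvy
    exact (pow_eq_one_iff_of_nonneg zero_le hn.ne').1 hvy
  refine ⟨k, by rw [hmk, hr', add_zero], (O'.valuation_le_one_iff _).1 hvy1.le, ?_⟩
  rw [← O'.valuation_le_one_iff, map_inv₀, hvy1, inv_one]

/-- `v ≡ 1` at `O'` and `v = c * z ^ n` with `c ∈ Frac R` `⇒` `v * b ^ n = κ` with `κ ∈ Rˣ`. -/
theorem normalize_const (hϖ : Irreducible ϖ) {O' : ValuationSubring F'} (hG : GaussRing ϖ O')
    (hR : ∀ r : R, algebraMap R F' r ∈ O') {n : ℕ} (hn : 0 < n) {v : F'}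
    (hv : v - 1 ∈ O'.nonunits) (h : ConstPow R n v) :
    ∃ (κ : R) (b : F'), IsUnit κ ∧ v * b ^ n = algebraMap R F' κ := by
  obtain ⟨r, s, z, hr, hs, hz⟩ := h
  obtain ⟨a, ur, hur⟩ := IsDiscreteValuationRing.eq_unit_mul_pow_irreducible hr hϖ
  obtain ⟨b, us, hus⟩ := IsDiscreteValuationRing.eq_unit_mul_pow_irreducible hs hϖ
  obtain ⟨hvO, hvO', hv0⟩ := unit_of_sub_one_mem hv
  set π : F' := algebraMap R F' ϖ with hπ
  have hπ0 : π ≠ 0 := hG.ne_zero
  -- images of the units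
  have hunit : ∀ u : Rˣ, algebraMap R F' (u : R) * algebraMap R F' ((u⁻¹ : Rˣ) : R) = 1 := by
    intro u
    rw [← map_mul, Units.mul_inv, map_one]
  have hur0 : algebraMap R F' (ur : R) ≠ 0 := left_ne_zero_of_mul_eq_one (hunit ur)
  have hus0 : algebraMap R F' (us : R) ≠ 0 := left_ne_zero_of_mul_eq_one (hunit us)
  have hinv : ∀ u : Rˣ, (algebraMap R F' (u : R))⁻¹ = algebraMap R F' ((u⁻¹ : Rˣ) : R) :=
    fun u => inv_eq_of_mul_eq_one_right (hunit u)
  -- the unit `e`
  set e : F' := v * algebraMap R F' (us : R) / algebraMap R F' (ur : R) with he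
  have he0 : e ≠ 0 := div_ne_zero (mul_ne_zero hv0 hus0) hur0
  have heO : e ∈ O' := by
    rw [he, div_eq_mul_inv, hinv]
    exact O'.mul_mem _ _ (O'.mul_mem _ _ hvO (hR _)) (hR _)
  have heO' : e⁻¹ ∈ O' := by
    have : e⁻¹ = v⁻¹ * (algebraMap R F' (us : R))⁻¹ * algebraMap R F' (ur : R) := by
      rw [he]; field_simp
    rw [this, hinv]
    exact O'.mul_mem _ _ (O'.mul_mem _ _ hvO' (hR _)) (hR _)
  have hzn : z ^ n = π ^ ((b : ℤ) - a) * e := by
    have h1 : algebraMap R F' r = algebraMap R F' (ur : R) * π ^ a := by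
      rw [hur, map_mul, map_pow]
    have h2 : algebraMap R F' s = algebraMap R F' (us : R) * π ^ b := by
      rw [hus, map_mul, map_pow]
    rw [h1, h2] at hz
    rw [zpow_sub₀ hπ0, zpow_natCast, zpow_natCast, he]
    field_simp
    linear_combination (-1 : F') * hz
  obtain ⟨k, hk, hz0, hz0'⟩ := exists_zpow_of_pow hG hn _ heO heO' he0 hzn
  refine ⟨(ur * us⁻¹ : Rˣ), (z / π ^ k)⁻¹, Units.isUnit _, ?_⟩
  have hpk : (π ^ k) ^ n = π ^ ((b : ℤ) - a) := by
    rw [hk, mul_comm, zpow_mul, zpow_natCast]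
  have hpk0 : π ^ ((b : ℤ) - a) ≠ 0 := zpow_ne_zero _ hπ0
  rw [inv_pow, div_pow, hzn, hpk, Units.val_mul, map_mul, ← hinv, he]
  field_simp

/-- the residue of `b` is a constant. -/
theorem exists_beta {O' : ValuationSubring F'} (hc : ConstRes R O')
    (hR : ∀ r : R, algebraMap R F' r ∈ O') {n : ℕ} (hn : IsUnit (n : R)) {v b : F'} {κ : R}
    (hκ : IsUnit κ) (hv : v - 1 ∈ O'.nonunits) (hb : v * b ^ n = algebraMap R F' κ) :
    ∃ β : R, b - algebraMap R F' β ∈ O'.nonunits := by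
  obtain ⟨hvO, hvO', hv0⟩ := unit_of_sub_one_mem hv
  apply hc b n κ hn hκ
  have hbn : b ^ n = algebraMap R F' κ * v⁻¹ := by
    rw [← hb]; field_simp
  have hbO : b ^ n ∈ O' := by
    rw [hbn]; exact O'.mul_mem _ _ (hR κ) hvO'
  have : b ^ n - algebraMap R F' κ = b ^ n * (-(v - 1)) := by
    rw [← hb]; ring
  rw [this]
  exact nonunits_mul_left hbO (nonunits_neg hv)

end Fermat.Agent.GT.Glue
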