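import Fermat.Agent.GT.Glue.AbsMain
import Fermat.Agent.GT.Glue.Normalize

/-! GT-GLUE, file `Geo`: THE EXPORT OF GLUE (statement GEO of the GT lead's decision D4). -/

set_option autoImplicit false

namespace Fermat.Agent.GT.Glue

open Fermat.Agent.GR.E Fermat.Agent.GS Fermat.Agent.GT

variable {R : Type*} [CommRing R] [IsDomain R] [IsDiscreteValuationRing R]
variable {F F' : Type*} [Field F] [Field F'] [Algebra R F] [Algebra R F'] {ι : Type*}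
variable {ϖ : R} {𝒪 : ι → ValuationSubring F}

/-- (GEO) `w ≡ 1` on the three components, the divisor of `w` on the generic fibre is divisible by
`n`, both norms of `w` are constants times `n`-th powers `⇒` `w ^ (q² - 1)` is an `n`-th power up to
an element integral over `R` (i.e. a constant). -/
theorem geo_main [Finite ι] (hϖ : Irreducible ϖ) {ii im iz : ι} {q : ℕ} (hq : 2 ≤ q)
    {Oi' Oz' : ValuationSubring F'} {φ1 φ2 : F' →ₐ[R] F} {N1 N2 : F →* F'} {h : F}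
    (hG : GeoData ϖ 𝒪 ii im iz q Oi' Oz' φ1 φ2 N1 N2 h)
    {n : ℕ} (hn : IsUnit (n : R)) {w : F} (hw : ∀ i, w - 1 ∈ (𝒪 i).nonunits)
    (hdiv : DivisibleAtPlaces R n w) (h1 : ConstPow R n (N1 w)) (h2 : ConstPow R n (N2 w)) :
    ∃ a : F, a ≠ 0 ∧ IsIntegral R (a ^ n * w ^ (q ^ 2 - 1)) := by
  have hn0 : 0 < n := by
    rcases Nat.eq_zero_or_pos n with rfl | hpos
    · simp at hn
    · exact hpos
  have : Nonempty ι := ⟨ii⟩
  have hu : ∀ i, w ∈ 𝒪 i ∧ w⁻¹ ∈ 𝒪 i ∧ w ≠ 0 := fun i => unit_of_sub_one_mem (hw i)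
  have hw0 : w ≠ 0 := (hu ii).2.2
  have h0 : h ≠ 0 := by
    rintro rfl
    exact hG.h_transc isAlgebraic_zero
  have hLF0 : LocFree ϖ (chart R ({h} : Set F)) n w := by
    intro 𝔪 h𝔪 hm
    exact exists_locGen' hϖ hG.vert hG.chart0 hn0 (fun i => (hu i).1)
      (fun i => (hu i).2.1) hw0 hdiv 𝔪 h𝔪 hm (hG.reg0 𝔪 h𝔪 hm)
  have hLF1 : LocFree ϖ (chart R ({h⁻¹} : Set F)) n w := by
    intro 𝔪 h𝔪 hm
    exact exists_locGen' hϖ hG.vert hG.chart1 hn0 (fun i => (hu i).1)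
      (fun i => (hu i).2.1) hw0 hdiv 𝔪 h𝔪 hm (hG.reg1 𝔪 h𝔪 hm)
  obtain ⟨c1i, c1z⟩ := norm_cong_one hG.nv1 (hw iz) (hw ii) (hw im)
  obtain ⟨c2z, c2i⟩ := norm_cong_one hG.nv2 (hw ii) (hw iz) (hw im)
  obtain ⟨κ1, b1, hκ1, hb1⟩ := normalize_const hϖ hG.gauss_i' hG.mem_i' hn0 c1i h1
  obtain ⟨κ2, b2, hκ2, hb2⟩ := normalize_const hϖ hG.gauss_i' hG.mem_i' hn0 c2i h2
  obtain ⟨β1i, hb1i⟩ := exists_beta hG.const_i' hG.mem_i' hn hκ1 c1i hb1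
  obtain ⟨β1z, hb1z⟩ := exists_beta hG.const_z' hG.mem_z' hn hκ1 c1z hb1
  obtain ⟨β2i, hb2i⟩ := exists_beta hG.const_i' hG.mem_i' hn hκ2 c2i hb2
  obtain ⟨β2z, hb2z⟩ := exists_beta hG.const_z' hG.mem_z' hn hκ2 c2z hb2
  obtain ⟨a, ha0, hc0, hc1⟩ := glue_main hϖ hG.vert hG.h_mem hG.h_inv_mem h0 hG.chart0 hG.chart1
    hG.fin ii im iz hG.idx hG.ne_im hG.ne_iz hG.ne_mz hq hG.mem_i' hG.mem_z' hG.nv1 hG.nv2 hG.pts0 hG.pts1 hn hw hLF0 hLF1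
    hκ1 hκ2 hb1 hb2 hb1i hb1z hb2i hb2z
  exact ⟨a, ha0, isIntegral_of_mem_chart_of_mem_chart hG.h_transc hc0 hc1⟩

end Fermat.Agent.GT.Glue
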