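import Fermat.Agent.GT.Glue.Relation
import Fermat.Agent.GT.Abs.Lift

/-! GT-GLUE, file `Loc`: generalities on `locAt C 𝔪` and `InMaxLoc C 𝔪` (see `GT/Abs/Lift.lean`:
`Lift_isLocalRing`, `Lift_mem_max_iff`, `Lift_locAt_le`, `Lift_mem_max_of_nu`). -/

set_option autoImplicit false

namespace Fermat.Agent.GT.Glue

open Fermat.Agent.GR.E Fermat.Agent.GS Fermat.Agent.GT

variable {R : Type*} [CommRing R] {F : Type*} [Field F] [Algebra R F] {ι : Type*}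

/-! ### Helpers -/

/-- `mem_vertI` without any hypothesis on `R` -/
theorem Loc_mem_vertI {V : ValuationSubring F} {C : Subalgebra R F} (hle : ∀ x ∈ C, x ∈ V)
    (x : C) : x ∈ vertI V C ↔ (x : F) ∈ V.nonunits := by
  constructor
  · intro hx
    refine Submodule.span_induction (p := fun (y : C) _ => (y : F) ∈ V.nonunits)
      (fun y hy => hy) ?_ ?_ ?_ hx
    · exact Lift_nu_zero V
    · intro y z _ _ hy hz
      exact Lift_nu_add V hy hz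
    · intro a y _ hy
      have : ((a • y : C) : F) = (y : F) * (a : F) := by
        rw [smul_eq_mul, mul_comm]; rfl
      rw [this]
      exact Lift_nu_mul V hy (hle _ a.2)
  · intro hx
    exact Ideal.subset_span hx

/-! ### `InMaxLoc` is the maximal ideal of `locAt` -/

theorem inMaxLoc_mem {C : Subalgebra R F} {𝔪 : Ideal C} [𝔪.IsPrime] {x : F}
    (hx : InMaxLoc C 𝔪 x) : x ∈ locAt C 𝔪 := by
  obtain ⟨s, t, hs, _, h⟩ := hx
  exact ⟨s, hs, h ▸ t.2⟩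

theorem inMaxLoc_add {C : Subalgebra R F} {𝔪 : Ideal C} [𝔪.IsPrime] {x y : F}
    (hx : InMaxLoc C 𝔪 x) (hy : InMaxLoc C 𝔪 y) : InMaxLoc C 𝔪 (x + y) := by
  obtain ⟨s, t, hs, ht, h⟩ := hx
  obtain ⟨s', t', hs', ht', h'⟩ := hy
  refine ⟨s * s', t * s' + t' * s, fun h => (‹𝔪.IsPrime›.mem_or_mem h).elim hs hs',
    𝔪.add_mem (𝔪.mul_mem_right _ ht) (𝔪.mul_mem_right _ ht'), ?_⟩
  push_cast
  rw [← h, ← h']
  ring

theorem inMaxLoc_mul {C : Subalgebra R F} {𝔪 : Ideal C} [𝔪.IsPrime] {x y : F}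
    (hx : x ∈ locAt C 𝔪) (hy : InMaxLoc C 𝔪 y) : InMaxLoc C 𝔪 (x * y) := by
  obtain ⟨s, hs, hc⟩ := hx
  obtain ⟨s', t', hs', ht', h'⟩ := hy
  refine ⟨s * s', ⟨_, hc⟩ * t', fun h => (‹𝔪.IsPrime›.mem_or_mem h).elim hs hs',
    𝔪.mul_mem_left _ ht', ?_⟩
  push_cast
  rw [← h']
  ring

/-- an element of the local ring is a unit or lies in the maximal ideal -/
theorem inMaxLoc_or_inv_mem {C : Subalgebra R F} {𝔪 : Ideal C} [𝔪.IsPrime] {x : F}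
    (hx : x ∈ locAt C 𝔪) : InMaxLoc C 𝔪 x ∨ x⁻¹ ∈ locAt C 𝔪 := by
  obtain ⟨s, hs, hc⟩ := hx
  by_cases ht : (⟨_, hc⟩ : C) ∈ 𝔪
  · exact Or.inl ⟨s, ⟨_, hc⟩, hs, ht, rfl⟩
  · right
    refine ⟨⟨_, hc⟩, ht, ?_⟩
    have hne : x * (s : F) ≠ 0 := Loc_coe_ne_zero 𝔪 ht
    have hx0 : x ≠ 0 := left_ne_zero_of_mul hne
    have : x⁻¹ * ((⟨_, hc⟩ : C) : F) = s := by
      change x⁻¹ * (x * (s : F)) = s
      rw [← mul_assoc, inv_mul_cancel₀ hx0, one_mul]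
    rw [this]
    exact s.2

theorem not_inMaxLoc_one {C : Subalgebra R F} {𝔪 : Ideal C} [𝔪.IsPrime] :
    ¬ InMaxLoc C 𝔪 1 := by
  rintro ⟨s, t, hs, ht, h⟩
  rw [one_mul] at h
  exact hs (Subtype.ext h ▸ ht)

/-- a component through the point: `locAt C 𝔪 ≤ 𝒪` -/
theorem locAt_le_of_vertI_le {V : ValuationSubring F} {C : Subalgebra R F}
    (hle : ∀ x ∈ C, x ∈ V) {𝔪 : Ideal C} [𝔪.IsPrime] (h : vertI V C ≤ 𝔪) :
    ∀ x ∈ locAt C 𝔪, x ∈ V := by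
  rintro z ⟨s, hs, hc⟩
  have hs' : (s : F) ∉ V.nonunits := fun h' => hs (h ((Loc_mem_vertI hle s).2 h'))
  have hs0 : (s : F) ≠ 0 := Loc_coe_ne_zero 𝔪 hs
  have : z = z * s * (s : F)⁻¹ := by
    rw [mul_assoc, mul_inv_cancel₀ hs0, mul_one]
  rw [this]
  exact V.mul_mem _ _ (hle _ hc) (Lift_inv_mem V (hle _ s.2) hs')

/-- a component through the point: `locAt C 𝔪 ∩ 𝔪(𝒪)` lies in the maximal ideal -/
theorem inMaxLoc_of_mem_nonunits {V : ValuationSubring F} {C : Subalgebra R F}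
    (hle : ∀ x ∈ C, x ∈ V) {𝔪 : Ideal C} [𝔪.IsPrime] (h : vertI V C ≤ 𝔪) {x : F}
    (hx : x ∈ locAt C 𝔪) (hx' : x ∈ V.nonunits) : InMaxLoc C 𝔪 x := by
  obtain ⟨s, hs, hc⟩ := hx
  refine ⟨s, ⟨_, hc⟩, hs, h ?_, rfl⟩
  rw [Loc_mem_vertI hle]
  exact Lift_nu_mul V hx' (hle _ s.2)

/-- every element of the local ring at a MAXIMAL ideal is congruent to an element of `C` -/
theorem exists_mem_chart_cong {C : Subalgebra R F} {𝔪 : Ideal C} (h𝔪 : 𝔪.IsMaximal)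
    {x : F} (hx : haveI := h𝔪.isPrime; x ∈ locAt C 𝔪) :
    ∃ c : C, InMaxLoc C 𝔪 (x - (c : F)) := by
  obtain ⟨s, hs, hc⟩ := hx
  obtain ⟨s', i, hi, hs'⟩ := h𝔪.exists_inv hs
  refine ⟨⟨_, hc⟩ * s', s, ⟨_, hc⟩ * i, hs, 𝔪.mul_mem_left _ hi, ?_⟩
  have h1 : (s' : F) * s + i = 1 := by
    have := congrArg (Subtype.val) hs'
    simpa using this
  push_cast
  linear_combination (-(x * (s : F))) * h1

/-- `c ∈ C` lies in the maximal ideal of the local ring iff `c ∈ 𝔪` -/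
theorem inMaxLoc_coe_iff {C : Subalgebra R F} {𝔪 : Ideal C} [𝔪.IsPrime] (c : C) :
    InMaxLoc C 𝔪 (c : F) ↔ c ∈ 𝔪 := by
  constructor
  · rintro ⟨s, t, hs, ht, h⟩
    have : c * s = t := Subtype.ext (by push_cast; exact h)
    exact (‹𝔪.IsPrime›.mem_or_mem (this ▸ ht)).resolve_right hs
  · intro hc
    exact ⟨1, c, fun h => ‹𝔪.IsPrime›.ne_top ((Ideal.eq_top_iff_one _).2 h), hc, by simp⟩

end Fermat.Agent.GT.Glue
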