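import Fermat.Agent.GT.Glue.Loc

/-! GT-GLUE, file `Rep`: the residue of a local `n`-th root on a component through the point is
regular at the point (the reduced components are normal). -/

set_option autoImplicit false

namespace Fermat.Agent.GT.Glue

open Fermat.Agent.GR.E Fermat.Agent.GS Fermat.Agent.GT

variable {R : Type*} [CommRing R] {F : Type*} [Field F] [Algebra R F] {ι : Type*}
variable {ϖ : R} {𝒪 : ι → ValuationSubring F}

/-- `mem_vertI` without hypotheses on `R`. -/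
theorem Rep_mem_vertI {V : ValuationSubring F} {C : Subalgebra R F} (hle : ∀ x ∈ C, x ∈ V)
    (x : C) : x ∈ vertI V C ↔ (x : F) ∈ V.nonunits := by
  constructor
  · intro hx
    refine Submodule.span_induction (p := fun (y : C) _ => (y : F) ∈ V.nonunits)
      (fun y hy => hy) ?_ ?_ ?_ hx
    · exact V.nonunits.zero_mem
    · intro y z _ _ hy hz
      exact V.nonunits.add_mem hy hz
    · intro a y _ hy
      exact basic_mul_mem_nonunits (hle _ a.2) hy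
  · intro hx
    exact Ideal.subset_span hx

omit [Algebra R F] in
theorem Rep_pow_sub_pow {V : ValuationSubring F} {x y : F} (hx : x ∈ V) (hy : y ∈ V)
    (h : x - y ∈ V.nonunits) (n : ℕ) : x ^ n - y ^ n ∈ V.nonunits := by
  rw [← geom_sum₂_mul, mul_comm]
  exact Lift_nu_mul V h (sum_mem fun i _ => mul_mem (pow_mem hx _) (pow_mem hy _))

omit [Algebra R F] in
theorem Rep_mem_of_pow_mem {V : ValuationSubring F} {a : F} {n : ℕ} (hn : 0 < n)
    (h : a ^ n ∈ V) : a ∈ V := by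
  rcases V.mem_or_inv_mem a with h' | h'
  · exact h'
  · by_cases ha : a = 0
    · rw [ha]; exact V.zero_mem
    have e : a = a ^ n * a⁻¹ ^ (n - 1) := by
      obtain ⟨m, rfl⟩ : ∃ m, n = m + 1 := ⟨n - 1, (Nat.sub_add_cancel hn).symm⟩
      simp only [Nat.add_sub_cancel]
      rw [pow_succ', mul_assoc, ← mul_pow, mul_inv_cancel₀ ha, one_pow, mul_one]
    rw [e]
    exact mul_mem h (pow_mem h' _)

/-- divisibility in an integrally closed domain. -/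
theorem Rep_dvd_of_pow {D : Type*} [CommRing D] [IsDomain D] [IsIntegrallyClosed D] {n : ℕ}
    (hn : 0 < n) {c b τ : D} (hb : b ≠ 0) (h : c ^ n = τ * b ^ n) : ∃ d : D, c = d * b := by
  have hb' : algebraMap D (FractionRing D) b ≠ 0 := by
    rw [Ne, map_eq_zero_iff _ (IsFractionRing.injective D (FractionRing D))]
    exact hb
  obtain ⟨d, hd⟩ := IsIntegrallyClosed.exists_algebraMap_eq_of_isIntegral_pow (R := D)
    (K := FractionRing D)
    (x := algebraMap D (FractionRing D) c / algebraMap D (FractionRing D) b) hn (by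
      rw [div_pow, ← map_pow, ← map_pow, h, map_mul, mul_div_assoc, div_self, mul_one]
      · exact isIntegral_algebraMap
      · rw [map_pow]
        exact pow_ne_zero _ hb')
  refine ⟨d, ?_⟩
  apply IsFractionRing.injective D (FractionRing D)
  rw [map_mul, hd, div_mul_cancel₀ _ hb']

/-- (Rep-0) normality of the component `C ⧸ vertI (𝒪 i) C` at `𝔪`, in terms of `F`:
`a ∈ 𝒪 i`, `ε ∈ locAt C 𝔪` and `a ^ n ≡ ε` on the component `⇒` `a ≡ x` with `x ∈ locAt C 𝔪`. -/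
theorem exists_rep_of_pow {C : Subalgebra R F} (hC : MultiChart ϖ 𝒪 C) (𝔪 : Ideal C) [𝔪.IsPrime]
    (i : ι) (hi : vertI (𝒪 i) C ≤ 𝔪) {n : ℕ} (hn : 0 < n) {a ε : F} (ha : a ∈ 𝒪 i)
    (hε : ε ∈ locAt C 𝔪) (h : a ^ n - ε ∈ (𝒪 i).nonunits) :
    ∃ x ∈ locAt C 𝔪, a - x ∈ (𝒪 i).nonunits := by
  have hle : ∀ x ∈ C, x ∈ 𝒪 i := hC.le i
  obtain ⟨s, hs, hεs⟩ := hε
  have hsV : (s : F) ∉ (𝒪 i).nonunits := fun h' => hs (hi (Ideal.subset_span h'))
  have hs0 : (s : F) ≠ 0 := Loc_coe_ne_zero 𝔪 hs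
  obtain ⟨b, hbC, hbV, habC⟩ := hC.frac i (a * s) (mul_mem ha (hle _ s.2))
  have hb0 : b ≠ 0 := by
    rintro rfl
    exact hbV (Lift_nu_zero _)
  have hrel : (⟨_, habC⟩ : C) ^ n - (⟨_, hεs⟩ * s ^ (n - 1)) * (⟨b, hbC⟩ : C) ^ n ∈
      vertI (𝒪 i) C := by
    apply Ideal.subset_span
    show (((⟨_, habC⟩ : C) ^ n - (⟨_, hεs⟩ * s ^ (n - 1)) * (⟨b, hbC⟩ : C) ^ n : C) : F) ∈
      (𝒪 i).nonunits
    have e : (((⟨_, habC⟩ : C) ^ n - (⟨_, hεs⟩ * s ^ (n - 1)) * (⟨b, hbC⟩ : C) ^ n : C) : F) =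
        (a ^ n - ε) * ((s : F) ^ n * b ^ n) := by
      obtain ⟨m, rfl⟩ : ∃ m, n = m + 1 := ⟨n - 1, (Nat.sub_add_cancel hn).symm⟩
      simp only [Nat.add_sub_cancel, AddSubgroupClass.coe_sub, MulMemClass.coe_mul,
        SubmonoidClass.coe_pow]
      ring
    rw [e]
    exact Lift_nu_mul _ h (mul_mem (pow_mem (hle _ s.2) _) (pow_mem (hle _ hbC) _))
  have := hC.ded i
  have hbD : (Ideal.Quotient.mk (vertI (𝒪 i) C) ⟨b, hbC⟩) ≠ 0 := by
    rw [Ne, Ideal.Quotient.eq_zero_iff_mem, Rep_mem_vertI hle]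
    exact hbV
  have hrel' : (Ideal.Quotient.mk (vertI (𝒪 i) C) ⟨_, habC⟩) ^ n =
      (Ideal.Quotient.mk (vertI (𝒪 i) C) (⟨_, hεs⟩ * s ^ (n - 1))) *
        (Ideal.Quotient.mk (vertI (𝒪 i) C) ⟨b, hbC⟩) ^ n := by
    rw [← map_pow, ← map_pow, ← map_mul, ← sub_eq_zero, ← map_sub,
      Ideal.Quotient.eq_zero_iff_mem]
    exact hrel
  obtain ⟨d', hd⟩ := Rep_dvd_of_pow hn hbD hrel'
  obtain ⟨d, rfl⟩ := Ideal.Quotient.mk_surjective d'
  have hmem : (⟨_, habC⟩ : C) - d * ⟨b, hbC⟩ ∈ vertI (𝒪 i) C := by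
    rw [← Ideal.Quotient.eq_zero_iff_mem, map_sub, map_mul, hd, sub_self]
  have hmem' : a * (s : F) * b - (d : F) * b ∈ (𝒪 i).nonunits := (Rep_mem_vertI hle _).mp hmem
  refine ⟨(d : F) * (s : F)⁻¹, ⟨s, hs, ?_⟩, ?_⟩
  · rw [inv_mul_cancel_right₀ hs0]
    exact d.2
  · have e : a - (d : F) * (s : F)⁻¹ = (a * (s : F) * b - (d : F) * b) * (b⁻¹ * (s : F)⁻¹) := by
      field_simp
    rw [e]
    exact Lift_nu_mul _ hmem'
      (mul_mem (Lift_inv_mem _ (hle _ hbC) hbV) (Lift_inv_mem _ (hle _ s.2) hsV))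

/-- (Rep) `a ^ n * w` a unit at `𝔪`, `w ≡ 1` on the component `i` through `𝔪`: the residue of `a`
is represented by a UNIT `x` of `locAt C 𝔪`. -/
theorem exists_rep {C : Subalgebra R F} (hC : MultiChart ϖ 𝒪 C) (𝔪 : Ideal C) [𝔪.IsPrime]
    (i : ι) (hi : vertI (𝒪 i) C ≤ 𝔪) {n : ℕ} (hn : 0 < n) {a w : F}
    (hw : w - 1 ∈ (𝒪 i).nonunits) (h1 : a ^ n * w ∈ locAt C 𝔪) (h2 : (a ^ n * w)⁻¹ ∈ locAt C 𝔪) :
    ∃ x ∈ locAt C 𝔪, x⁻¹ ∈ locAt C 𝔪 ∧ a - x ∈ (𝒪 i).nonunits := by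
  have hle : ∀ x ∈ C, x ∈ 𝒪 i := hC.le i
  obtain ⟨hwV, hwV', hw0⟩ := unit_of_sub_one_mem hw
  by_cases hε0 : a ^ n * w = 0
  · have ha0 : a = 0 := by
      rcases mul_eq_zero.mp hε0 with h | h
      · exact pow_eq_zero_iff hn.ne' |>.mp h
      · exact absurd h hw0
    refine ⟨0, (locAt C 𝔪).zero_mem, ?_, ?_⟩
    · rw [inv_zero]
      exact (locAt C 𝔪).zero_mem
    · rw [ha0, sub_zero]
      exact Lift_nu_zero _
  have haV : a ∈ 𝒪 i := by
    apply Rep_mem_of_pow_mem hn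
    have e : a ^ n = a ^ n * w * w⁻¹ := by field_simp
    rw [e]
    exact mul_mem (locAt_le_of_vertI_le hle hi _ h1) hwV'
  have hcong : a ^ n - a ^ n * w ∈ (𝒪 i).nonunits := by
    have e : a ^ n - a ^ n * w = -((w - 1) * a ^ n) := by ring
    rw [e]
    exact Lift_nu_neg _ (Lift_nu_mul _ hw (pow_mem haV n))
  obtain ⟨x, hx, hax⟩ := exists_rep_of_pow hC 𝔪 i hi hn haV h1 hcong
  refine ⟨x, hx, ?_, hax⟩
  rcases inMaxLoc_or_inv_mem hx with hM | hM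
  · exfalso
    have hxV : x ∈ 𝒪 i := locAt_le_of_vertI_le hle hi _ hx
    have hxn : InMaxLoc C 𝔪 (x ^ n) := by
      obtain ⟨m, rfl⟩ : ∃ m, n = m + 1 := ⟨n - 1, (Nat.sub_add_cancel hn).symm⟩
      rw [pow_succ]
      exact inMaxLoc_mul ((locAt C 𝔪).pow_mem hx m) hM
    have h3 : a ^ n * w - x ^ n ∈ (𝒪 i).nonunits := by
      have e : a ^ n * w - x ^ n = (a ^ n - x ^ n) + -(a ^ n - a ^ n * w) := by ring
      rw [e]
      exact Lift_nu_add _ (Rep_pow_sub_pow haV hxV hax n) (Lift_nu_neg _ hcong)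
    have h4 : InMaxLoc C 𝔪 (a ^ n * w - x ^ n) :=
      inMaxLoc_of_mem_nonunits hle hi ((locAt C 𝔪).sub_mem h1 ((locAt C 𝔪).pow_mem hx n)) h3
    have h5 : InMaxLoc C 𝔪 (a ^ n * w) := by
      have := inMaxLoc_add h4 hxn
      rwa [sub_add_cancel] at this
    have h6 := inMaxLoc_mul h2 h5
    rw [inv_mul_cancel₀ hε0] at h6
    exact not_inMaxLoc_one h6
  · exact hM

end Fermat.Agent.GT.Glue
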