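import Fermat.Agent.GT.Glue.Rep

/-! GT-GLUE, file `Single`: `LocalTriv` at a point lying on one component only. -/

set_option autoImplicit false

namespace Fermat.Agent.GT.Glue

open Fermat.Agent.GR.E Fermat.Agent.GS Fermat.Agent.GT

variable {R : Type*} [CommRing R] {F : Type*} [Field F] [Algebra R F] {ι : Type*}
variable {ϖ : R} {𝒪 : ι → ValuationSubring F}

/-- a representative `x` of the residue of `a ≠ 0` with `a ^ n * w` a unit at `𝔪` is nonzero. -/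
theorem Single_rep_ne_zero {V : ValuationSubring F} {C : Subalgebra R F}
    (hle : ∀ x ∈ C, x ∈ V) {𝔪 : Ideal C} [𝔪.IsPrime] (hv : vertI V C ≤ 𝔪)
    {n : ℕ} (hn : 0 < n) {a w x : F} (ha0 : a ≠ 0) (hw : w - 1 ∈ V.nonunits)
    (h2 : (a ^ n * w)⁻¹ ∈ locAt C 𝔪) (hax : a - x ∈ V.nonunits) : x ≠ 0 := by
  rintro rfl
  have ha : a ∈ V.nonunits := by simpa using hax
  have hwO : w ∈ V := cong_mem V.one_mem hw
  have hle' := locAt_le_of_vertI_le hle hv
  have hw0 : w ≠ 0 := by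
    rintro rfl
    rw [zero_sub] at hw
    have h5 := nonunits_neg hw
    rw [neg_neg, ValuationSubring.mem_nonunits_iff, map_one] at h5
    exact lt_irrefl _ h5
  have h3 : a ^ n * w ∈ V.nonunits := by
    obtain ⟨k, rfl⟩ : ∃ k, n = k + 1 := ⟨n - 1, by omega⟩
    have : a ^ (k + 1) * w = (a ^ k * w) * a := by ring
    rw [this]
    exact nonunits_mul_left (V.mul_mem _ _ (V.pow_mem (nonunits_mem ha) k) hwO) ha
  have h4 := nonunits_mul_left (hle' _ h2) h3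
  have h0 : a ^ n * w ≠ 0 := mul_ne_zero (pow_ne_zero _ ha0) hw0
  rw [inv_mul_cancel₀ h0, ValuationSubring.mem_nonunits_iff, map_one] at h4
  exact lt_irrefl _ h4

/-- (Triv-1) a closed point lying on only one component: any (unit) constants will do. -/
theorem localTriv_single {C : Subalgebra R F} (hC : MultiChart ϖ 𝒪 C) (𝔪 : Ideal C)
    (h𝔪 : 𝔪.IsMaximal) (i₁ : ι) (hi₁ : ∀ i, vertI (𝒪 i) C ≤ 𝔪 → i = i₁)
    {n : ℕ} (hn : 0 < n) {w : F} (hw : ∀ i, w - 1 ∈ (𝒪 i).nonunits) (m : ℕ)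
    (ζ : ι → R) (hζ : ∀ i, IsUnit (ζ i))
    (hLF : haveI := h𝔪.isPrime;
      ∃ a : F, a ≠ 0 ∧ a ^ n * w ∈ locAt C 𝔪 ∧ (a ^ n * w)⁻¹ ∈ locAt C 𝔪) :
    haveI := h𝔪.isPrime; LocalTriv 𝒪 ζ C n (w ^ m) 𝔪 := by
  haveI := h𝔪.isPrime
  obtain ⟨a, ha0, h1, h2⟩ := hLF
  have e1 : (a ^ m) ^ n * w ^ m = (a ^ n * w) ^ m := by
    rw [mul_pow, ← pow_mul, ← pow_mul, mul_comm m n]
  refine ⟨a ^ m, ?_, ?_, ?_⟩
  · rw [e1]
    exact (locAt C 𝔪).pow_mem h1 m
  · rw [e1, ← inv_pow]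
    exact (locAt C 𝔪).pow_mem h2 m
  by_cases hv : vertI (𝒪 i₁) C ≤ 𝔪
  · obtain ⟨x, hx, hxi, hax⟩ := exists_rep hC 𝔪 i₁ hv hn (hw i₁) h1 h2
    have hx0 : x ≠ 0 := Single_rep_ne_zero (hC.le i₁) hv hn ha0 (hw i₁) h2 hax
    obtain ⟨u, hu⟩ := hζ i₁
    set z : F := algebraMap R F ((u⁻¹ : Rˣ) : R) with hz
    have hzζ : algebraMap R F (ζ i₁) * z = 1 := by
      rw [hz, ← hu, ← map_mul, Units.mul_inv, map_one]
    have hzmem : z ∈ locAt C 𝔪 := (locAt C 𝔪).algebraMap_mem _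
    have hζmem : algebraMap R F (ζ i₁) ∈ locAt C 𝔪 := (locAt C 𝔪).algebraMap_mem _
    have hxm : x ^ m ∈ locAt C 𝔪 := (locAt C 𝔪).pow_mem hx m
    have hy : x ^ m * z ∈ locAt C 𝔪 := (locAt C 𝔪).mul_mem hxm hzmem
    obtain ⟨c, hc⟩ := exists_mem_chart_cong h𝔪 hy
    refine ⟨c, ?_, ?_⟩
    · intro hcm
      have h3 : InMaxLoc C 𝔪 (c : F) := (inMaxLoc_coe_iff c).2 hcm
      have h4 : InMaxLoc C 𝔪 (x ^ m * z) := by
        have := inMaxLoc_add hc h3
        rwa [sub_add_cancel] at this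
      have h5 : (x⁻¹) ^ m * algebraMap R F (ζ i₁) ∈ locAt C 𝔪 :=
        (locAt C 𝔪).mul_mem ((locAt C 𝔪).pow_mem hxi m) hζmem
      have h6 := inMaxLoc_mul h5 h4
      have e2 : (x⁻¹) ^ m * algebraMap R F (ζ i₁) * (x ^ m * z) = 1 := by
        have : (x⁻¹) ^ m * x ^ m = 1 := by
          rw [← mul_pow, inv_mul_cancel₀ hx0, one_pow]
        calc (x⁻¹) ^ m * algebraMap R F (ζ i₁) * (x ^ m * z)
            = ((x⁻¹) ^ m * x ^ m) * (algebraMap R F (ζ i₁) * z) := by ring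
          _ = 1 := by rw [this, hzζ, one_mul]
      rw [e2] at h6
      exact not_inMaxLoc_one h6
    · intro i hi
      obtain rfl := hi₁ i hi
      refine ⟨x ^ m, hxm, ?_, ?_⟩
      · exact cong_pow (locAt_le_of_vertI_le (hC.le i) hv x hx) hax m
      · have e3 : x ^ m - algebraMap R F (ζ i) * (c : F) =
            algebraMap R F (ζ i) * (x ^ m * z - (c : F)) := by
          calc x ^ m - algebraMap R F (ζ i) * (c : F)
              = x ^ m * (algebraMap R F (ζ i) * z) - algebraMap R F (ζ i) * (c : F) := by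
                rw [hzζ, mul_one]
            _ = algebraMap R F (ζ i) * (x ^ m * z - (c : F)) := by ring
        rw [e3]
        exact inMaxLoc_mul hζmem hc
  · refine ⟨1, fun h => h𝔪.ne_top ((Ideal.eq_top_iff_one _).2 h), fun i hi => ?_⟩
    exact absurd (hi₁ i hi ▸ hi) hv

end Fermat.Agent.GT.Glue
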