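import Fermat.Agent.GT.Glue.Relation
import Fermat.Agent.GR.E.BR7

/-! GT-GLUE, file `Transport`: `NormVal` for the second pair `(φ₂, N₂) = (w2 ∘ φ₁ ∘ w1, w1 ∘ N₁ ∘ w2)`
from `NormVal` for `(φ₁, N₁)` by Atkin-Lehner transport. -/

set_option autoImplicit false

namespace Fermat.Agent.GT.Glue

open Fermat.Agent.GR.E Fermat.Agent.GS Fermat.Agent.GT

variable {R : Type*} [CommRing R] {F F' : Type*} [Field F] [Field F'] [Algebra R F] [Algebra R F']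

/-- a ring isomorphism exchanging two valuation rings exchanges their maximal ideals. -/
theorem nonunits_iff_of_mem_iff {K : Type*} [Field K] {O O' : ValuationSubring K} (w : K ≃+* K)
    (h : ∀ x, x ∈ O ↔ w x ∈ O') (x : K) : x ∈ O.nonunits ↔ w x ∈ O'.nonunits := by
  rw [BR7_mem_nonunits_iff, BR7_mem_nonunits_iff, h x⁻¹, map_inv₀, map_eq_zero_iff w w.injective]

/-- ATKIN-LEHNER TRANSPORT of `NormVal`.  Indices as in `GeoData`: `Oi = ∞`, `Om = mid`, `Oz = 0`. -/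
theorem NormVal.transport {q : ℕ} {φ1 : F' →ₐ[R] F} {N1 : F →* F'}
    {Oi Om Oz : ValuationSubring F} {Oi' Oz' : ValuationSubring F'}
    (h : NormVal q φ1 N1 Oz Oi Om Oz' Oi') (w1 : F' ≃ₐ[R] F') (w2 : F ≃ₐ[R] F)
    (invol1 : ∀ x, w1 (w1 x) = x) (invol2 : ∀ x, w2 (w2 x) = x)
    (opp1 : ∀ x, x ∈ Oz' ↔ w1 x ∈ Oi') (opp2 : ∀ x, x ∈ Oz ↔ w2 x ∈ Oi)
    (mid : ∀ x, x ∈ Om ↔ w2 x ∈ Om) :
    NormVal q ((w2 : F →ₐ[R] F).comp (φ1.comp (w1 : F' →ₐ[R] F')))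
      ((w1 : F' →* F').comp (N1.comp (w2 : F →* F))) Oi Oz Om Oi' Oz' := by
  have opp1' : ∀ x, x ∈ Oi' ↔ w1 x ∈ Oz' := fun x => by rw [opp1 (w1 x), invol1]
  have opp2' : ∀ x, x ∈ Oi ↔ w2 x ∈ Oz := fun x => by rw [opp2 (w2 x), invol2]
  have n1 : ∀ x, x ∈ Oz'.nonunits ↔ w1 x ∈ Oi'.nonunits :=
    nonunits_iff_of_mem_iff w1.toRingEquiv opp1
  have n1' : ∀ x, x ∈ Oi'.nonunits ↔ w1 x ∈ Oz'.nonunits :=
    nonunits_iff_of_mem_iff w1.toRingEquiv opp1'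
  have n2 : ∀ x, x ∈ Oz.nonunits ↔ w2 x ∈ Oi.nonunits :=
    nonunits_iff_of_mem_iff w2.toRingEquiv opp2
  have n2' : ∀ x, x ∈ Oi.nonunits ↔ w2 x ∈ Oz.nonunits :=
    nonunits_iff_of_mem_iff w2.toRingEquiv opp2'
  have nm : ∀ x, x ∈ Om.nonunits ↔ w2 x ∈ Om.nonunits :=
    nonunits_iff_of_mem_iff w2.toRingEquiv mid
  refine ⟨?_, ?_, ?_, ?_, ?_, ?_⟩
  · intro y hy
    show w2 (φ1 (w1 y)) ∈ Oi.nonunits
    exact (n2 _).1 (h.map_ins _ ((n1' y).1 hy))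
  · intro y hy
    show w2 (φ1 (w1 y)) ∈ Oz.nonunits
    exact (n2' _).1 (h.map_a _ ((n1 y).1 hy))
  · intro y hy
    show w2 (φ1 (w1 y)) ∈ Om.nonunits
    exact (nm _).1 (h.map_b _ ((n1 y).1 hy))
  · intro y hy
    have hy' : w2 (φ1 (w1 y)) ∈ Oi.nonunits := hy
    exact (n1' y).2 (h.comap_ins _ ((n2 _).2 hy'))
  · intro a ha
    show w2 (φ1 (w1 (w1 (N1 (w2 a))))) - a ^ q ∈ Oi.nonunits
    rw [invol1]
    have h1 := h.red_ins (w2 a) ((opp2' a).1 ha)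
    have h2 := (n2 _).1 h1
    rwa [map_sub, map_pow, invol2] at h2
  · intro a ya yb hya hyb h1 h2
    have h1' : a - w2 (φ1 (w1 ya)) ∈ Oz.nonunits := h1
    have h2' : a - w2 (φ1 (w1 yb)) ∈ Om.nonunits := h2
    show w1 (N1 (w2 a)) - ya * yb ^ (q - 1) ∈ Oz'.nonunits
    have e1 := (n2 _).1 h1'
    have e2 := (nm _).1 h2'
    rw [map_sub, invol2] at e1 e2
    have e3 := h.red_ab (w2 a) (w1 ya) (w1 yb) ((opp1 ya).1 hya) ((opp1 yb).1 hyb) e1 e2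
    have e4 := (n1' _).1 e3
    rwa [map_sub, map_mul, map_pow, invol1, invol1] at e4

end Fermat.Agent.GT.Glue
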